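import Mathlib

/-!
# S55 / B1 — finite-group cohomology toolkit: basic definitions

`infl A N n : Hⁿ(G ⧸ N, A^N) ⟶ Hⁿ(G, A)` and `rest A H n : Hⁿ(G, A) ⟶ Hⁿ(H, A)` are the
inflation and restriction maps of Mathlib's `groupCohomology`, packaged as abbreviations so that
all files of the package use the same normal forms.
-/

set_option autoImplicit false

universe u

open CategoryTheory

namespace Fermat.Agent.S55.GrpCoh

variable {k G : Type u} [CommRing k] [Group G]

/-- Inflation `Hⁿ(G ⧸ N, A^N) ⟶ Hⁿ(G, A)`. -/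
noncomputable abbrev infl (A : Rep.{u} k G) (N : Subgroup G) [N.Normal] (n : ℕ) :
    groupCohomology (A.quotientToInvariants N) n ⟶ groupCohomology A n :=
  groupCohomology.map (QuotientGroup.mk' N) (Rep.ofHom <| A.ρ.quotientToInvariants_lift N) n

/-- Restriction `Hⁿ(G, A) ⟶ Hⁿ(H, A)`. -/
noncomputable abbrev rest (A : Rep.{u} k G) (H : Subgroup G) (n : ℕ) :
    groupCohomology A n ⟶ groupCohomology (Rep.res H.subtype A) n :=
  groupCohomology.map H.subtype (𝟙 (Rep.res H.subtype A)) n

/-- `A` has vanishing cohomology in degree `n` on the subgroup `H`. -/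
abbrev VanishOn (A : Rep.{u} k G) (H : Subgroup G) (n : ℕ) : Prop :=
  Limits.IsZero (groupCohomology (Rep.res H.subtype A) n)

end Fermat.Agent.S55.GrpCoh
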