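import Fermat.Agent.S55.GrpCoh.Defs

/-!
# S55 / B1 — transport of vanishing statements along group isomorphisms

Vanishing of `Hⁿ` is invariant under replacing a group by an isomorphic one (same underlying
module, action pulled back).  Consequences used all over the package:

* `vanishOn_top_iff`: `VanishOn A ⊤ n ↔ IsZero (Hⁿ(G, A))`;
* `vanishOn_res_iff_map`: for `H' ≤ H ≤ G` (with `H'` given as a subgroup of `↥H`),
  `VanishOn (Res_H A) H' n ↔ VanishOn A (H'.map H.subtype) n`.

So a hypothesis "`Hⁿ` vanishes on every subgroup of `G`" restricts to every subgroup `H`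
(viewed as a group) without any further work.
-/

set_option autoImplicit false

universe u

open CategoryTheory

namespace Fermat.Agent.S55.GrpCoh

variable {k G : Type u} [CommRing k] [Group G]

/-- The cohomology of `G'` with coefficients in `A` is the cohomology of `G` with coefficients in
the pullback of `A` along a group isomorphism `e : G ≃* G'`. -/
noncomputable def resMulEquivIso {G' : Type u} [Group G'] (e : G ≃* G') (A : Rep.{u} k G')
    (n : ℕ) : groupCohomology (Rep.res e.toMonoidHom A) n ≅ groupCohomology A n :=
  groupCohomology.mapIso (A := A) (B := Rep.res e.toMonoidHom A) e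
    (LinearEquiv.refl k _) (fun _ => rfl) n

/-- Transport of vanishing along a group isomorphism (same underlying module). -/
theorem isZero_res_mulEquiv {G' : Type u} [Group G'] (e : G ≃* G') (A : Rep.{u} k G') (n : ℕ)
    (h : Limits.IsZero (groupCohomology A n)) :
    Limits.IsZero (groupCohomology (Rep.res e.toMonoidHom A) n) :=
  h.of_iso (resMulEquivIso e A n)

/-- Transport of vanishing along a group isomorphism, converse direction. -/
theorem isZero_of_res_mulEquiv {G' : Type u} [Group G'] (e : G ≃* G') (A : Rep.{u} k G') (n : ℕ)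
    (h : Limits.IsZero (groupCohomology (Rep.res e.toMonoidHom A) n)) :
    Limits.IsZero (groupCohomology A n) :=
  h.of_iso (resMulEquivIso e A n).symm

/-- Vanishing on the full subgroup `⊤` is vanishing for `G`. -/
theorem isZero_of_vanishOn_top (A : Rep.{u} k G) (n : ℕ) (h : VanishOn A ⊤ n) :
    Limits.IsZero (groupCohomology A n) :=
  isZero_res_mulEquiv (Subgroup.topEquiv (G := G)).symm (Rep.res (⊤ : Subgroup G).subtype A) n h

/-- Vanishing for `G` gives vanishing on the full subgroup `⊤`. -/
theorem vanishOn_top_of_isZero (A : Rep.{u} k G) (n : ℕ)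
    (h : Limits.IsZero (groupCohomology A n)) : VanishOn A ⊤ n :=
  isZero_res_mulEquiv (Subgroup.topEquiv (G := G)) A n h

theorem vanishOn_top_iff (A : Rep.{u} k G) (n : ℕ) :
    VanishOn A ⊤ n ↔ Limits.IsZero (groupCohomology A n) :=
  ⟨isZero_of_vanishOn_top A n, vanishOn_top_of_isZero A n⟩

/-- Vanishing on a subgroup `H'` of the group `↥H`, from vanishing on its image in `G`. -/
theorem vanishOn_res_of_map (A : Rep.{u} k G) (H : Subgroup G) (H' : Subgroup H) (n : ℕ)
    (h : VanishOn A (H'.map H.subtype) n) : VanishOn (Rep.res H.subtype A) H' n :=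
  isZero_res_mulEquiv (H'.equivMapOfInjective H.subtype H.subtype_injective)
    (Rep.res (H'.map H.subtype).subtype A) n h

/-- Vanishing on the image in `G` of a subgroup `H'` of the group `↥H`. -/
theorem vanishOn_map_of_res (A : Rep.{u} k G) (H : Subgroup G) (H' : Subgroup H) (n : ℕ)
    (h : VanishOn (Rep.res H.subtype A) H' n) : VanishOn A (H'.map H.subtype) n :=
  isZero_of_res_mulEquiv (H'.equivMapOfInjective H.subtype H.subtype_injective)
    (Rep.res (H'.map H.subtype).subtype A) n h

theorem vanishOn_res_iff_map (A : Rep.{u} k G) (H : Subgroup G) (H' : Subgroup H) (n : ℕ) :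
    VanishOn (Rep.res H.subtype A) H' n ↔ VanishOn A (H'.map H.subtype) n :=
  ⟨vanishOn_map_of_res A H H' n, vanishOn_res_of_map A H H' n⟩

/-- A hypothesis "`Hⁿ` vanishes on all subgroups of `G`" restricts to any subgroup. -/
theorem forall_vanishOn_res (A : Rep.{u} k G) (n : ℕ) (h : ∀ H : Subgroup G, VanishOn A H n)
    (H : Subgroup G) : ∀ H' : Subgroup H, VanishOn (Rep.res H.subtype A) H' n :=
  fun H' => vanishOn_res_of_map A H H' n (h _)

/-- A zero module receives only the zero map: an injective map into a zero cohomology group
has zero source. -/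
theorem isZero_of_injective {M N : ModuleCat.{u} k} (f : M ⟶ N) (hf : Function.Injective f)
    (hN : Limits.IsZero N) : Limits.IsZero M := by
  rw [ModuleCat.isZero_iff_subsingleton] at hN ⊢
  exact hf.subsingleton

end Fermat.Agent.S55.GrpCoh
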