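import Fermat.Agent.S55.GrpCoh.Induct
import Fermat.Agent.S55.GrpCoh.Transport

/-!
# S55 / B1 — the Galois-units instance of `IsGaloisLike`

`Induct.lean` proves "solvable induction" principles for properties `P` of pairs (group, module)
which are stable under restriction to subgroups and under `(G, A) ↦ (G ⧸ N, A^N)`.  Such a `P`
has to be invariant under isomorphisms of pairs.  This file provides the basic arithmetic
instance: for a class `𝒦` of fields (in `Type`) stable under finite extensions,

`IsGalUnits 𝒦 G A` : there are a finite Galois extension `L/K` with `𝒦 K`, a group isomorphism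
`e : G ≃* Gal(L/K)` and an isomorphism `A ≅ Res_e (Lˣ)` of `G`-modules.

* `isGaloisLike_isGalUnits` : `IsGalUnits 𝒦` is Galois-like (subgroup `H` ↔ fixed field `L^H`;
  quotient `G ⧸ N` ↔ `L^N / K`, with `(Lˣ)^N = (L^N)ˣ`).
* `isZero_H1_of_isGalUnits` : Hilbert 90 (Mathlib), transported.
* `card_H2_units_le` : if `|H²(Gal(L/K), Lˣ)| ≤ [L:K]` for all Galois extensions of prime degree
  of fields of the class, then for all finite Galois extensions of fields of the class.
-/

set_option autoImplicit false

open CategoryTheory

namespace Fermat.Agent.S55.GrpCoh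

/-- `(G, A)` is, up to isomorphism, the Galois group of a finite Galois extension `L/K` with
`K` in the class `𝒦`, acting on the units of `L`. -/
def IsGalUnits (𝒦 : ∀ (K : Type) [Field K], Prop) (G : Type) [Group G] (A : Rep.{0} ℤ G) : Prop :=
  ∃ (K L : Type) (_ : Field K) (_ : Field L) (_ : Algebra K L) (_ : FiniteDimensional K L)
    (_ : IsGalois K L), 𝒦 K ∧ ∃ e : G ≃* (L ≃ₐ[K] L),
      Nonempty (A ≅ Rep.res e.toMonoidHom (Rep.ofAlgebraAutOnUnits K L))

namespace GalUnits

variable {K L : Type} [Field K] [Field L] [Algebra K L] [FiniteDimensional K L] [IsGalois K L]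

/-- The Galois group of `L` over the fixed field of `H`, as a group isomorphic to `H`. -/
noncomputable def fixedEquiv (H : Subgroup (L ≃ₐ[K] L)) :
    H ≃* (L ≃ₐ[IntermediateField.fixedField H] L) :=
  (MulEquiv.subgroupCongr (IntermediateField.fixingSubgroup_fixedField H).symm).trans
    (IntermediateField.fixingSubgroupEquiv (IntermediateField.fixedField H))

omit [IsGalois K L] in
theorem fixedEquiv_apply (H : Subgroup (L ≃ₐ[K] L)) (h : H) (x : L) :
    fixedEquiv H h x = (h : L ≃ₐ[K] L) x := rfl

/-- Restricting the units of `L/K` to a subgroup `H` gives the units of `L/L^H`. -/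
noncomputable def resIso (H : Subgroup (L ≃ₐ[K] L)) :
    Rep.res H.subtype (Rep.ofAlgebraAutOnUnits K L) ≅
      Rep.res (fixedEquiv H).toMonoidHom
        (Rep.ofAlgebraAutOnUnits (IntermediateField.fixedField H) L) :=
  Rep.mkIso (Representation.Equiv.mk (LinearEquiv.refl ℤ _) (fun h => by
    ext x
    rfl))


section quot

variable {G : Type} [Group G] (e : G ≃* (L ≃ₐ[K] L)) (N : Subgroup G) [N.Normal]

omit [FiniteDimensional K L] [IsGalois K L] in
theorem normal_map : (N.map e.toMonoidHom).Normal :=
  Subgroup.Normal.map inferInstance _ e.surjective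

attribute [local instance] normal_map

/-- The fixed field of (the image of) `N`. -/
abbrev quotField : IntermediateField K L := IntermediateField.fixedField (N.map e.toMonoidHom)

/-- `G ⧸ N` is the Galois group of the fixed field of `N` over `K`. -/
noncomputable def quotEquiv : G ⧸ N ≃* ((quotField e N) ≃ₐ[K] (quotField e N)) :=
  (QuotientGroup.congr N (N.map e.toMonoidHom) e rfl).trans
    (IsGalois.normalAutEquivQuotient (N.map e.toMonoidHom))

theorem quotEquiv_apply (g : G) (y : quotField e N) :
    ((quotEquiv e N (g : G ⧸ N)) y : L) = e g y := by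
  change ((AlgEquiv.restrictNormalHom (quotField e N)) (e g) y : L) = e g y
  rw [AlgEquiv.restrictNormalHom_apply]

omit [FiniteDimensional K L] [IsGalois K L] [N.Normal] in
theorem mem_quotField_iff (x : L) : x ∈ quotField e N ↔ ∀ n : N, e n x = x := by
  rw [IntermediateField.mem_fixedField_iff]
  constructor
  · intro h n
    exact h (e n) (Subgroup.mem_map_of_mem _ n.2)
  · rintro h σ ⟨n, hn, rfl⟩
    exact h ⟨n, hn⟩


/-- The inclusion of the units of the fixed field of `N` into the `N`-invariant units of `L`. -/
noncomputable def invHom :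
    Additive (quotField e N)ˣ →+
      (Representation.invariants
        ((Rep.res e.toMonoidHom (Rep.ofAlgebraAutOnUnits K L)).ρ.comp N.subtype)) where
  toFun y := ⟨Additive.ofMul
      (Units.map (algebraMap (quotField e N) L : (quotField e N) →* L) y.toMul), by
    intro n
    change Additive.ofMul ((e (n : G)) • (Units.map (algebraMap (quotField e N) L :
      (quotField e N) →* L) y.toMul)) = _
    congr 1
    ext
    exact (mem_quotField_iff e N _).mp (y.toMul : quotField e N).2 n⟩
  map_zero' := by
    ext
    rfl
  map_add' y z := by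
    apply Subtype.ext
    change Additive.ofMul (Units.map _ (y.toMul * z.toMul)) = _
    rw [map_mul]
    rfl

omit [FiniteDimensional K L] [IsGalois K L] [N.Normal] in
theorem invHom_bijective : Function.Bijective (invHom e N) := by
  constructor
  · intro y z h
    have h1 : Units.map (algebraMap (quotField e N) L : (quotField e N) →* L) y.toMul =
        Units.map (algebraMap (quotField e N) L : (quotField e N) →* L) z.toMul :=
      congrArg (fun t => Additive.toMul t.1) h
    have h2 : ((y.toMul : quotField e N) : L) = ((z.toMul : quotField e N) : L) :=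
      congrArg Units.val h1
    exact Additive.toMul.injective (Units.ext (Subtype.ext h2))
  · rintro ⟨x, hx⟩
    have hmem : ((Additive.toMul x : Lˣ) : L) ∈ quotField e N := by
      rw [mem_quotField_iff]
      intro n
      have := congrArg (fun t => ((Additive.toMul t : Lˣ) : L)) (hx n)
      exact this
    have hne : (⟨_, hmem⟩ : quotField e N) ≠ 0 := by
      intro h0
      exact (Additive.toMul x : Lˣ).ne_zero (congrArg Subtype.val h0)
    refine ⟨Additive.ofMul (Units.mk0 ⟨_, hmem⟩ hne), ?_⟩
    apply Subtype.ext
    change Additive.ofMul (Units.map _ (Units.mk0 _ hne)) = x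
    apply Additive.toMul.injective
    ext
    rfl

/-- The units of the fixed field of `N` are the `N`-invariant units of `L`. -/
noncomputable def invEquiv :
    Additive (quotField e N)ˣ ≃ₗ[ℤ]
      (Representation.invariants
        ((Rep.res e.toMonoidHom (Rep.ofAlgebraAutOnUnits K L)).ρ.comp N.subtype)) :=
  (AddEquiv.ofBijective (invHom e N) (invHom_bijective e N)).toIntLinearEquiv

/-- `(Lˣ)^N`, as a `G ⧸ N`-module, is the module of units of `L^N / K`. -/
noncomputable def quotIso :
    Rep.res (quotEquiv e N).toMonoidHom (Rep.ofAlgebraAutOnUnits K (quotField e N)) ≅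
      (Rep.res e.toMonoidHom (Rep.ofAlgebraAutOnUnits K L)).quotientToInvariants N :=
  Rep.mkIso (Representation.Equiv.mk (invEquiv e N) (fun q => by
    induction q using QuotientGroup.induction_on with
    | _ g =>
      ext y
      change Additive.ofMul (Units.map (algebraMap (quotField e N) L : (quotField e N) →* L)
          (Units.map (quotEquiv e N (g : G ⧸ N) : (quotField e N) →* (quotField e N))
            (Additive.toMul (α := (quotField e N)ˣ) y))) =
        Additive.ofMul (Units.map (e g : L →* L)
          (Units.map (algebraMap (quotField e N) L : (quotField e N) →* L)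
            (Additive.toMul (α := (quotField e N)ˣ) y)))
      congr 1
      ext
      exact quotEquiv_apply e N g _))

end quot

end GalUnits

open GalUnits

attribute [local instance] GalUnits.normal_map

/-- The tautological instance: the units of a finite Galois extension `L/K` with `𝒦 K`. -/
theorem isGalUnits_self (𝒦 : ∀ (K : Type) [Field K], Prop) (K L : Type) [Field K] [Field L]
    [Algebra K L] [FiniteDimensional K L] [IsGalois K L] (hK : 𝒦 K) :
    IsGalUnits 𝒦 (L ≃ₐ[K] L) (Rep.ofAlgebraAutOnUnits K L) :=
  ⟨K, L, inferInstance, inferInstance, inferInstance, inferInstance, inferInstance, hK,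
    MulEquiv.refl _, ⟨Iso.refl _⟩⟩

/-- **The Galois-units instance of `IsGaloisLike`**, for a class `𝒦` of fields stable under
finite extensions. -/
theorem isGaloisLike_isGalUnits (𝒦 : ∀ (K : Type) [Field K], Prop)
    (h𝒦 : ∀ (K L : Type) [Field K] [Field L] [Algebra K L] [FiniteDimensional K L], 𝒦 K → 𝒦 L) :
    IsGaloisLike (IsGalUnits 𝒦) where
  res G _ A H := by
    rintro ⟨K, L, _, _, _, _, _, hK, e, ⟨φ⟩⟩
    refine ⟨IntermediateField.fixedField (H.map e.toMonoidHom), L, inferInstance, inferInstance,
      inferInstance, inferInstance, inferInstance, h𝒦 K _ hK,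
      (H.equivMapOfInjective e.toMonoidHom e.injective).trans (fixedEquiv (H.map e.toMonoidHom)),
      ⟨?_⟩⟩
    exact (Rep.resFunctor H.subtype).mapIso φ ≪≫
      Rep.mkIso (Representation.Equiv.mk (LinearEquiv.refl ℤ _) (fun h => by ext x; rfl))
  quot G _ A N _ := by
    rintro ⟨K, L, _, _, _, _, _, hK, e, ⟨φ⟩⟩
    exact ⟨K, quotField e N, inferInstance, inferInstance, inferInstance, inferInstance,
      inferInstance, hK, quotEquiv e N,
      ⟨(Rep.quotientToInvariantsFunctor ℤ N).mapIso φ ≪≫ (quotIso e N).symm⟩⟩

/-- Hilbert 90 for Galois units, in transported form. -/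
theorem isZero_H1_of_isGalUnits {𝒦 : ∀ (K : Type) [Field K], Prop} {G : Type} [Group G]
    {A : Rep.{0} ℤ G} (hA : IsGalUnits 𝒦 G A) : Limits.IsZero (groupCohomology A 1) := by
  obtain ⟨K, L, _, _, _, _, _, hK, e, ⟨φ⟩⟩ := hA
  have h0 : Limits.IsZero (groupCohomology (Rep.ofAlgebraAutOnUnits K L) 1) := by
    have : Subsingleton (groupCohomology.H1 (Rep.ofAlgebraAutOnUnits K L)) :=
      Unique.instSubsingleton
    exact ModuleCat.isZero_of_subsingleton _
  exact (isZero_res_mulEquiv e _ 1 h0).of_iso ((groupCohomology.functor ℤ G 1).mapIso φ)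

/-- **Local-type second inequality from the prime-degree case**: if `|H²(Gal(L/K), Lˣ)| ≤ [L:K]`
for all Galois extensions of prime degree of fields of the class `𝒦` (stable under finite
extensions), then the same holds for all finite Galois extensions of fields of the class. -/
theorem card_H2_units_le (𝒦 : ∀ (K : Type) [Field K], Prop)
    (h𝒦 : ∀ (K L : Type) [Field K] [Field L] [Algebra K L] [FiniteDimensional K L], 𝒦 K → 𝒦 L)
    (hprime : ∀ (K L : Type) [Field K] [Field L] [Algebra K L] [FiniteDimensional K L]
      [IsGalois K L], 𝒦 K → (Module.finrank K L).Prime →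
      Finite (groupCohomology (Rep.ofAlgebraAutOnUnits K L) 2) ∧
        Nat.card (groupCohomology (Rep.ofAlgebraAutOnUnits K L) 2) ≤ Module.finrank K L)
    (K L : Type) [Field K] [Field L] [Algebra K L] [FiniteDimensional K L] [IsGalois K L]
    (hK : 𝒦 K) :
    Finite (groupCohomology (Rep.ofAlgebraAutOnUnits K L) 2) ∧
      Nat.card (groupCohomology (Rep.ofAlgebraAutOnUnits K L) 2) ≤ Module.finrank K L := by
  have key := card_H2_le_of_class (IsGalUnits 𝒦) (isGaloisLike_isGalUnits 𝒦 h𝒦)
    (fun G _ _ A hA _ => isZero_H1_of_isGalUnits hA)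
    (fun G _ _ A hA hp => by
      obtain ⟨K, L, _, _, _, _, _, hK, e, ⟨φ⟩⟩ := hA
      have hc : Nat.card G = Module.finrank K L :=
        (Nat.card_congr e.toEquiv).trans (IsGalois.card_aut_eq_finrank K L)
      obtain ⟨hf, hle⟩ := hprime K L hK (hc ▸ hp)
      let I := (groupCohomology.functor ℤ G 2).mapIso φ ≪≫
        resMulEquivIso e (Rep.ofAlgebraAutOnUnits K L) 2
      have E : groupCohomology A 2 ≃ groupCohomology (Rep.ofAlgebraAutOnUnits K L) 2 :=
        I.toLinearEquiv.toEquiv
      exact ⟨Finite.of_equiv _ E.symm, by rw [Nat.card_congr E, hc]; exact hle⟩)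
    (L ≃ₐ[K] L) (Rep.ofAlgebraAutOnUnits K L) (isGalUnits_self 𝒦 K L hK)
  rwa [IsGalois.card_aut_eq_finrank] at key

end Fermat.Agent.S55.GrpCoh
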