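import Fermat.Agent.S55.GrpCoh.Defs

/-!
# S55 / B1 — coinduced modules and dimension shifting

`coind₁ A = Coind_1^G A` (Mathlib's `Rep.coind` along `⊥ ↪ G`), the embedding `A ⟶ coind₁ A`,
its cokernel `shift A`, and the acyclicity statements needed for dimension shifting:
`coind₁ A` has vanishing positive cohomology on every subgroup, and so do its `N`-invariants
as a `G ⧸ N`-module.
-/

set_option autoImplicit false

universe u

open CategoryTheory

namespace Fermat.Agent.S55.GrpCoh

variable {k G : Type u} [CommRing k] [Group G]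

/-- `Coind_1^G A`: functions `G → A` with `G` acting by right translation. -/
noncomputable abbrev coind₁ (A : Rep.{u} k G) : Rep.{u} k G :=
  Rep.coind (⊥ : Subgroup G).subtype (Rep.res (⊥ : Subgroup G).subtype A)

/-- The canonical embedding `A ⟶ Coind_1^G A`, `a ↦ (g ↦ g • a)`. -/
noncomputable abbrev toCoind₁ (A : Rep.{u} k G) : A ⟶ coind₁ A :=
  Rep.resCoindToHom (⊥ : Subgroup G).subtype A (Rep.res (⊥ : Subgroup G).subtype A) (𝟙 _)

instance mono_toCoind₁ (A : Rep.{u} k G) : Mono (toCoind₁ A) := by
  rw [Rep.mono_iff_injective]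
  intro a b hab
  have h := congrArg (fun f => f.1 (1 : G)) hab
  simpa using h

/-- The dimension-shifted module `A' = Coind_1^G A / A`. -/
noncomputable abbrev shift (A : Rep.{u} k G) : Rep.{u} k G := Limits.cokernel (toCoind₁ A)

/-- The short complex `A ⟶ Coind_1^G A ⟶ A'`. -/
noncomputable abbrev shiftSC (A : Rep.{u} k G) : ShortComplex (Rep.{u} k G) :=
  ShortComplex.mk (toCoind₁ A) (Limits.cokernel.π (toCoind₁ A)) (Limits.cokernel.condition _)

theorem shiftSC_shortExact (A : Rep.{u} k G) : (shiftSC A).ShortExact := by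
  refine ShortComplex.ShortExact.mk' ?_ (mono_toCoind₁ A) inferInstance
  exact ShortComplex.exact_of_g_is_cokernel _ (Limits.cokernelIsCokernel _)

/-! ### Auxiliary statements on coinduction from the trivial subgroup -/

section aux

variable {Γ : Type u} [Group Γ] {V : Type u} [AddCommGroup V] [Module k V]

/-- Every function lies in the coinduction from the trivial subgroup. -/
theorem coindVBot_mem (ρ : Representation k (⊥ : Subgroup Γ) V) (f : Γ → V) :
    f ∈ Representation.coindV (⊥ : Subgroup Γ).subtype ρ := by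
  intro g h
  have hg : g = 1 := Subsingleton.elim _ _
  subst hg
  simp

/-- The underlying module of `Coind_1^Γ V` is the module of all functions `Γ → V`. -/
noncomputable def coindVBotEquiv (ρ : Representation k (⊥ : Subgroup Γ) V) :
    Representation.coindV (⊥ : Subgroup Γ).subtype ρ ≃ₗ[k] (Γ → V) where
  toFun f := f.1
  invFun f := ⟨f, coindVBot_mem ρ f⟩
  map_add' _ _ := rfl
  map_smul' _ _ := rfl
  left_inv _ := rfl
  right_inv _ := rfl

/-- `Coind_1^Γ B` is acyclic (Shapiro's lemma for the trivial subgroup). -/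
theorem isZero_groupCohomology_coind_bot (B : Rep.{u} k (⊥ : Subgroup Γ)) (n : ℕ) :
    Limits.IsZero (groupCohomology (Rep.coind (⊥ : Subgroup Γ).subtype B) (n + 1)) :=
  Limits.IsZero.of_iso (isZero_groupCohomology_succ_of_subsingleton _ n)
    (groupCohomology.coindIso B (n + 1))

/-- Vanishing of group cohomology transfers along isomorphisms of representations. -/
theorem isZero_groupCohomology_of_repIso {X Y : Rep.{u} k Γ} (e : X ≅ Y) (n : ℕ)
    (h : Limits.IsZero (groupCohomology Y n)) : Limits.IsZero (groupCohomology X n) :=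
  Limits.IsZero.of_iso h ((groupCohomology.functor k Γ n).mapIso e)

end aux

/-! ### Restriction of `Coind_1^G A` to a subgroup -/

section transversal

variable (A : Rep.{u} k G) (H : Subgroup G) {S : Set G}

/-- Functions on `G` are functions on `H` with values in functions on a left transversal `S`
of `H` in `G`: `f ↦ (h ↦ s ↦ f (s * h))`. -/
noncomputable def coind₁TransvEquiv (V : Type u) [AddCommGroup V] [Module k V]
    (hS : Subgroup.IsComplement S (H : Set G)) : (G → V) ≃ₗ[k] (H → S → V) where
  toFun f h s := f (s * h)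
  invFun F g := F (hS.equiv g).2 (hS.equiv g).1
  map_add' _ _ := rfl
  map_smul' _ _ := rfl
  left_inv f := by
    funext g
    exact congrArg f (hS.equiv_fst_mul_equiv_snd g)
  right_inv F := by
    funext h s
    show F (hS.equiv (hS.equiv.symm (s, h))).2 (hS.equiv (hS.equiv.symm (s, h))).1 = F h s
    rw [Equiv.apply_symm_apply]

/-- `Res_H Coind_1^G A ≅ Coind_1^H (S → A)` for a left transversal `S` of `H` in `G`. -/
noncomputable def resCoind₁Iso (hS : Subgroup.IsComplement S (H : Set G)) :
    Rep.res H.subtype (coind₁ A) ≅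
      Rep.coind (⊥ : Subgroup H).subtype (Rep.trivial k (⊥ : Subgroup H) (S → A.V)) :=
  Rep.mkIso (ρ := (Representation.coind (⊥ : Subgroup G).subtype
      (Rep.res (⊥ : Subgroup G).subtype A).ρ).comp H.subtype)
    (σ := Representation.coind (⊥ : Subgroup H).subtype
      (Rep.trivial k (⊥ : Subgroup H) (S → A.V)).ρ)
    (Representation.Equiv.mk
      ((coindVBotEquiv _).trans ((coind₁TransvEquiv H A.V hS).trans (coindVBotEquiv _).symm))
      (fun h₀ => by
        ext f h s
        show f.1 (s * h * h₀) = f.1 (s * (h * h₀))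
        rw [mul_assoc]))

end transversal

/-- `Coind_1^G A` is acyclic on every subgroup. -/
theorem vanishOn_coind₁ (A : Rep.{u} k G) (H : Subgroup G) (n : ℕ) :
    VanishOn (coind₁ A) H (n + 1) := by
  obtain ⟨S, hS, -⟩ := Subgroup.exists_isComplement_left H 1
  exact isZero_groupCohomology_of_repIso (resCoind₁Iso A H hS) (n + 1)
    (isZero_groupCohomology_coind_bot _ n)

/-- `Coind_1^G A` is acyclic for `G` itself. -/
theorem isZero_coind₁ (A : Rep.{u} k G) (n : ℕ) :
    Limits.IsZero (groupCohomology (coind₁ A) (n + 1)) :=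
  isZero_groupCohomology_coind_bot _ n

/-! ### The `N`-invariants of `Coind_1^G A` -/

section quotient

variable (A : Rep.{u} k G) (N : Subgroup G) [N.Normal]

/-- Functions on `G ⧸ N` are the `N`-invariant functions on `G`. -/
noncomputable def coind₁QuotInvEquiv :
    Representation.coindV (⊥ : Subgroup (G ⧸ N)).subtype
        (Rep.trivial k (⊥ : Subgroup (G ⧸ N)) A.V).ρ ≃ₗ[k]
      Representation.invariants ((coind₁ A).ρ.comp N.subtype) where
  toFun F := ⟨⟨fun g => F.1 (QuotientGroup.mk g), coindVBot_mem _ _⟩, fun n => by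
    apply Subtype.ext
    funext g
    show F.1 (QuotientGroup.mk (g * (n : G))) = F.1 (QuotientGroup.mk g)
    rw [QuotientGroup.mk_mul_of_mem g n.2]⟩
  invFun f := ⟨fun q => f.1.1 q.out, coindVBot_mem _ _⟩
  map_add' _ _ := rfl
  map_smul' _ _ := rfl
  left_inv F := by
    apply Subtype.ext
    funext q
    show F.1 (QuotientGroup.mk q.out) = F.1 q
    rw [QuotientGroup.out_eq']
  right_inv f := by
    apply Subtype.ext
    apply Subtype.ext
    funext g
    show f.1.1 (QuotientGroup.mk g : G ⧸ N).out = f.1.1 g
    obtain ⟨n, hn⟩ := QuotientGroup.mk_out_eq_mul N g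
    rw [hn]
    exact congrArg (fun x => x.1 g) (f.2 n)

/-- `Coind_1^{G/N} A ≅ (Coind_1^G A)^N` as `G ⧸ N`-representations. -/
noncomputable def quotCoind₁Iso :
    Rep.coind (⊥ : Subgroup (G ⧸ N)).subtype (Rep.trivial k (⊥ : Subgroup (G ⧸ N)) A.V) ≅
      (coind₁ A).quotientToInvariants N :=
  Rep.mkIso (ρ := Representation.coind (⊥ : Subgroup (G ⧸ N)).subtype
      (Rep.trivial k (⊥ : Subgroup (G ⧸ N)) A.V).ρ)
    (σ := (coind₁ A).ρ.quotientToInvariants N)
    (Representation.Equiv.mk (coind₁QuotInvEquiv A N)
      (fun q => by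
        induction q using QuotientGroup.induction_on with
        | H g₀ =>
          ext F g
          rfl))

end quotient

/-- The `N`-invariants of `Coind_1^G A` are acyclic as a `G ⧸ N`-module. -/
theorem isZero_coind₁_quotientToInvariants (A : Rep.{u} k G) (N : Subgroup G) [N.Normal] (n : ℕ) :
    Limits.IsZero (groupCohomology ((coind₁ A).quotientToInvariants N) (n + 1)) :=
  isZero_groupCohomology_of_repIso (quotCoind₁Iso A N).symm (n + 1)
    (isZero_groupCohomology_coind_bot _ n)

/-- Dimension shifting: `Hⁿ⁺¹(G, A') ≅ Hⁿ⁺²(G, A)` via the connecting map. -/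
theorem isIso_δ_shift (A : Rep.{u} k G) (n : ℕ) :
    IsIso (groupCohomology.δ (shiftSC_shortExact A) (n + 1) (n + 2) rfl) :=
  groupCohomology.isIso_δ_of_isZero (shiftSC_shortExact A) (n + 1) (isZero_coind₁ A n)
    (isZero_coind₁ A (n + 1))

end Fermat.Agent.S55.GrpCoh
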