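import Fermat.Agent.S55.GrpCoh.SplitDefs
import Fermat.Agent.S55.GrpCoh.Coind

/-!
# S55 / B1 — cohomology of the augmentation module on subgroups

* `augSC_shortExact`, `splitSC_shortExact`: the two short exact sequences.
* `vanishOn_funRep`: `Fun(G, k) ≅ Coind_1^G k` is acyclic on every subgroup.
* `augClass k G H ∈ H¹(H, I_G)`: the class of `h ↦ h • δ₁ - δ₁`; `H1_aug_generated`: it generates.
* `isZero_H2_aug`: `H²(H, I_G) = 0` when `k` is torsion-free (e.g. `k = ℤ`).
-/

set_option autoImplicit false
set_option linter.unusedSectionVars false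

universe u

open CategoryTheory

namespace Fermat.Agent.S55.GrpCoh

variable {k G : Type u} [CommRing k] [Group G]

/-- Concrete criterion for short exactness in `Rep k G`. -/
theorem rep_shortExact_of (S : ShortComplex (Rep.{u} k G))
    (hinj : Function.Injective S.f.hom) (hsurj : Function.Surjective S.g.hom)
    (hex : ∀ x, S.g.hom x = 0 → ∃ y, S.f.hom y = x) : S.ShortExact := by
  have hexact : S.Exact := by
    rw [← ShortComplex.exact_map_iff_of_faithful S (forget₂ (Rep.{u} k G) (ModuleCat k)),
      ShortComplex.moduleCat_exact_iff]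
    intro x hx
    exact hex x hx
  exact { exact := hexact
          mono_f := (Rep.mono_iff_injective _).2 hinj
          epi_g := (Rep.epi_iff_surjective _).2 hsurj }

end Fermat.Agent.S55.GrpCoh

namespace Fermat.Agent.S55.GrpCoh

variable {k G : Type u} [CommRing k] [Group G] [Fintype G]

theorem augSC_shortExact : (augSC k G).ShortExact := by
  refine rep_shortExact_of _ ?_ ?_ ?_
  · intro x y h
    exact Subtype.ext h
  · intro (c : k)
    refine ⟨(c • delta₁ k G : G → k), ?_⟩
    show sumLin k G (c • delta₁ k G) = c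
    rw [map_smul, sumLin_delta₁, smul_eq_mul, mul_one]
  · intro x hx
    exact ⟨⟨x, hx⟩, rfl⟩

theorem splitSC_shortExact (C : Rep.{u} k G) (σ : groupCohomology.cocycles₂ C) :
    (splitSC C σ).ShortExact := by
  refine rep_shortExact_of _ ?_ ?_ ?_
  · intro x y h
    exact (Prod.ext_iff.1 h).1
  · intro f
    exact ⟨(0, f), rfl⟩
  · rintro ⟨c, f⟩ hx
    refine ⟨c, ?_⟩
    have : f = 0 := hx
    subst this
    rfl

end Fermat.Agent.S55.GrpCoh

namespace Fermat.Agent.S55.GrpCoh

variable (k G : Type u) [CommRing k] [Group G]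

/-- `Fun(G, k)` is `Coind_1^G k`. -/
noncomputable def funRepIsoCoind₁ : funRep k G ≅ coind₁ (Rep.trivial k G k) :=
  Rep.mkIso (Representation.Equiv.mk
    { toFun := fun f => ⟨f, fun s x => by
        have hs : (s : G) = 1 := Subgroup.mem_bot.1 s.2
        simp [hs]⟩
      map_add' := fun _ _ => rfl
      map_smul' := fun _ _ => rfl
      invFun := fun f => f.1
      left_inv := fun _ => rfl
      right_inv := fun _ => rfl }
    (fun g => by
      refine LinearMap.ext fun f => Subtype.ext ?_
      funext x
      rfl))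

theorem vanishOn_funRep (H : Subgroup G) (n : ℕ) : VanishOn (funRep k G) H (n + 1) := by
  have h := vanishOn_coind₁ (Rep.trivial k G k) H n
  exact h.of_iso ((groupCohomology.functor k H (n + 1)).mapIso
    ((Rep.resFunctor H.subtype).mapIso (funRepIsoCoind₁ k G)))

end Fermat.Agent.S55.GrpCoh

namespace Fermat.Agent.S55.GrpCoh

open groupCohomology

variable {k : Type u} [CommRing k]

/-- `H¹` of a finite group with trivial coefficients in a torsion-free module vanishes. -/
theorem isZero_H1_of_isTrivial {Γ : Type u} [Group Γ] [Finite Γ]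
    (A : Rep.{u} k Γ) [A.IsTrivial] (hA : ∀ n : ℕ, 0 < n → ∀ a : A, n • a = 0 → a = 0) :
    Limits.IsZero (groupCohomology A 1) := by
  have hsub : Subsingleton (Additive Γ →+ A) := by
    refine ⟨fun φ ψ => ?_⟩
    have key : ∀ φ : Additive Γ →+ A, φ = 0 := by
      intro φ
      refine DFunLike.ext _ _ (fun x => ?_)
      have hx : orderOf (Additive.toMul x) • x = 0 := by
        have := pow_orderOf_eq_one (Additive.toMul x)
        exact congrArg Additive.ofMul this
      have h2 : orderOf (Additive.toMul x) • φ x = 0 := by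
        rw [← map_nsmul, hx, map_zero]
      exact hA _ (orderOf_pos _) _ h2
    rw [key φ, key ψ]
  have : Limits.IsZero (ModuleCat.of k (Additive Γ →+ A)) := ModuleCat.isZero_of_subsingleton _
  exact this.of_iso (H1IsoOfIsTrivial A)

end Fermat.Agent.S55.GrpCoh

namespace Fermat.Agent.S55.GrpCoh

open groupCohomology

variable (k G : Type u) [CommRing k] [Group G] [Fintype G] (H : Subgroup G)

lemma augCochain_mul (g h : G) :
    augCochain k G (g * h) = augRho k G g (augCochain k G h) + augCochain k G g := by
  refine Subtype.ext ?_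
  funext x
  simp [augCochain_coe, mul_assoc]

lemma augCochain_mem_cocycles₁ :
    (fun h : H => augCochain k G (h : G)) ∈ cocycles₁ (Rep.res H.subtype (augRep k G)) := by
  rw [mem_cocycles₁_iff]
  intro g h
  exact augCochain_mul k G g h

/-- The canonical class in `H¹(H, I_G)`. -/
noncomputable def augClass : groupCohomology (Rep.res H.subtype (augRep k G)) 1 :=
  H1π (Rep.res H.subtype (augRep k G)) ⟨_, augCochain_mem_cocycles₁ k G H⟩

/-- The augmentation sequence restricted to `H`. -/
noncomputable abbrev augSCres : ShortComplex (Rep.{u} k H) :=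
  (augSC k G).map (Rep.resFunctor H.subtype)

lemma augSCres_shortExact : (augSCres k G H).ShortExact :=
  (Rep.shortExact_res H.subtype).2 augSC_shortExact

/-- `H¹(H, I_G)` is generated by `augClass`. -/
theorem H1_aug_generated (y : groupCohomology (Rep.res H.subtype (augRep k G)) 1) :
    ∃ m : k, y = m • augClass k G H := by
  have hX := augSCres_shortExact k G H
  have hepi : Epi (δ hX 0 1 rfl) := epi_δ_of_isZero hX 0 (vanishOn_funRep k G H 0)
  obtain ⟨w, rfl⟩ := (ModuleCat.epi_iff_surjective _).1 hepi y
  obtain ⟨z, rfl⟩ : ∃ z, (H0Iso (augSCres k G H).X₃).inv z = w :=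
    ⟨(H0Iso (augSCres k G H).X₃).hom w, by simp⟩
  obtain ⟨(m : k), hm⟩ := z
  refine ⟨m, ?_⟩
  have hx' : ∀ h : H, ((m • augCochain k G (h : G) : augSub k G) : G → k)
      = funRho k G (h : G) (m • delta₁ k G) - m • delta₁ k G := by
    intro h
    rw [Submodule.coe_smul, augCochain_coe, smul_sub, map_smul]
  have hx : (augSCres k G H).f.hom ∘
      (fun h : H => (m • augCochain k G (h : G) : (augSCres k G H).X₁))
      = d₀₁ (augSCres k G H).X₂ (m • delta₁ k G : G → k) := by
    funext h
    exact hx' h
  have hy : (augSCres k G H).g.hom (m • delta₁ k G : G → k)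
      = ((⟨m, hm⟩ : (augSCres k G H).X₃.ρ.invariants) : (augSCres k G H).X₃) := by
    show sumLin k G (m • delta₁ k G) = m
    rw [map_smul, sumLin_delta₁, smul_eq_mul, mul_one]
  rw [δ₀_apply hX ⟨m, hm⟩ (m • delta₁ k G : G → k) hy _ hx, augClass, ← map_smul]
  rfl

/-- `H²(H, I_G) = 0` when `k` is torsion-free (e.g. `k = ℤ`). -/
theorem isZero_H2_aug (hk : ∀ n : ℕ, 0 < n → ∀ a : k, n • a = 0 → a = 0) :
    VanishOn (augRep k G) H 2 := by
  have hX := augSCres_shortExact k G H
  have hex := mapShortComplex₁_exact hX (i := 1) (j := 2) rfl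
  haveI : ((augSCres k G H).X₃).IsTrivial := ⟨fun _ => rfl⟩
  have h1 : Limits.IsZero (groupCohomology (augSCres k G H).X₃ 1) :=
    isZero_H1_of_isTrivial _ hk
  have h2 : Limits.IsZero (groupCohomology (augSCres k G H).X₂ 2) := vanishOn_funRep k G H 1
  exact hex.isZero_of_both_isZero h1 h2

/-- `Fun(G, k)` is acyclic for `G`. -/
theorem isZero_funRep (n : ℕ) : Limits.IsZero (groupCohomology (funRep k G) (n + 1)) :=
  (isZero_coind₁ (Rep.trivial k G k) n).of_iso
    ((groupCohomology.functor k G (n + 1)).mapIso (funRepIsoCoind₁ k G))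

/-- `H²(G, I_G) = 0` when `k` is torsion-free (e.g. `k = ℤ`). -/
theorem isZero_H2_augRep (hk : ∀ n : ℕ, 0 < n → ∀ a : k, n • a = 0 → a = 0) :
    Limits.IsZero (groupCohomology (augRep k G) 2) := by
  have hX : (augSC k G).ShortExact := augSC_shortExact
  have hex := mapShortComplex₁_exact hX (i := 1) (j := 2) rfl
  have h1 : Limits.IsZero (groupCohomology (augSC k G).X₃ 1) :=
    isZero_H1_of_isTrivial (Rep.trivial k G k) hk
  have h2 : Limits.IsZero (groupCohomology (augSC k G).X₂ 2) := isZero_funRep k G 1
  exact hex.isZero_of_both_isZero h1 h2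

end Fermat.Agent.S55.GrpCoh
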