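import Fermat.Agent.S55.GrpCoh.Defs

/-!
# S55 / B1 — the augmentation module in the function model (definitions)

For a finite group `G` and a commutative ring `k`: `funRep k G` is `Fun(G, k)` with `G` acting by
right translation `(g • f) x = f (x * g)` (this is `Coind_1^G k ≅ k[G]`), `augRep k G` is the
subrepresentation `{f | ∑ x, f x = 0}` (`≅` the augmentation ideal `I_G`), and
`0 ⟶ augRep k G ⟶ funRep k G ⟶ k ⟶ 0` is the augmentation sequence.
-/

set_option autoImplicit false
set_option linter.unusedSectionVars false

universe u

open CategoryTheory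

namespace Fermat.Agent.S55.GrpCoh

variable (k G : Type u) [CommRing k] [Group G]

/-- Right translation representation of `G` on `G → k`: `(g • f) x = f (x * g)`. -/
def funRho : Representation k G (G → k) where
  toFun g :=
    { toFun := fun f x => f (x * g)
      map_add' := fun _ _ => rfl
      map_smul' := fun _ _ => rfl }
  map_one' := by ext f x; simp
  map_mul' g h := by ext f x; simp [mul_assoc]

@[simp] lemma funRho_apply (g : G) (f : G → k) (x : G) : funRho k G g f x = f (x * g) := rfl

variable [Fintype G]

/-- The sum map `Fun(G, k) → k`. -/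
def sumLin : (G → k) →ₗ[k] k where
  toFun f := ∑ x, f x
  map_add' f f' := by simp [Finset.sum_add_distrib]
  map_smul' c f := by simp [Finset.mul_sum]

@[simp] lemma sumLin_apply (f : G → k) : sumLin k G f = ∑ x, f x := rfl

lemma sumLin_funRho (g : G) (f : G → k) : sumLin k G (funRho k G g f) = sumLin k G f := by
  simp only [sumLin_apply, funRho_apply]
  exact Fintype.sum_equiv (Equiv.mulRight g) _ _ (fun _ => rfl)

/-- The submodule of functions of total sum `0`. -/
def augSub : Submodule k (G → k) := LinearMap.ker (sumLin k G)

lemma mem_augSub (f : G → k) : f ∈ augSub k G ↔ ∑ x, f x = 0 := by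
  simp [augSub]

lemma funRho_mem_augSub (g : G) {f : G → k} (hf : f ∈ augSub k G) :
    funRho k G g f ∈ augSub k G := by
  rw [augSub, LinearMap.mem_ker] at hf ⊢
  rw [sumLin_funRho, hf]

/-- The representation of `G` on the sum-zero functions. -/
def augRho : Representation k G (augSub k G) where
  toFun g := (funRho k G g).restrict (fun _ hf => funRho_mem_augSub k G g hf)
  map_one' := by ext f x; simp
  map_mul' g h := by ext f x; simp [mul_assoc]

@[simp] lemma augRho_apply_coe (g : G) (f : augSub k G) (x : G) :
    (augRho k G g f : G → k) x = (f : G → k) (x * g) := rfl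

/-- `Fun(G, k)` as an object of `Rep k G`. -/
abbrev funRep : Rep.{u} k G := Rep.of (funRho k G)

/-- The augmentation module `{f : G → k | ∑ f = 0}` as an object of `Rep k G`. -/
abbrev augRep : Rep.{u} k G := Rep.of (augRho k G)

/-- The inclusion `augRep k G ⟶ funRep k G`. -/
def augIncl : augRep k G ⟶ funRep k G :=
  Rep.ofHom ⟨(augSub k G).subtype, fun _ => rfl⟩

/-- The sum map `funRep k G ⟶ k` (trivial action). -/
def sumHom : funRep k G ⟶ Rep.trivial k G k :=
  Rep.ofHom ⟨sumLin k G, fun g => by ext f; exact sumLin_funRho k G g f⟩

/-- The augmentation short complex `augRep k G ⟶ funRep k G ⟶ k`. -/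
def augSC : ShortComplex (Rep.{u} k G) :=
  ShortComplex.mk (augIncl k G) (sumHom k G) (by
    ext ⟨f, hf⟩
    exact hf)

open Classical in
/-- The indicator function of `1 ∈ G`. -/
noncomputable def delta₁ : G → k := Pi.single 1 1

open Classical in
lemma sumLin_delta₁ : sumLin k G (delta₁ k G) = 1 := by
  simp [delta₁]

open Classical in
lemma delta₁_apply (x : G) : delta₁ k G x = if x = 1 then 1 else 0 := by
  simp [delta₁, Pi.single_apply]

/-- The standard 1-cochain `g ↦ g • δ₁ - δ₁` with values in the augmentation module. -/
noncomputable def augCochain (g : G) : augSub k G :=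
  ⟨funRho k G g (delta₁ k G) - delta₁ k G, by
    rw [augSub, LinearMap.mem_ker, map_sub, sumLin_funRho, sub_self]⟩

lemma augCochain_coe (g : G) :
    (augCochain k G g : G → k) = funRho k G g (delta₁ k G) - delta₁ k G := rfl

end Fermat.Agent.S55.GrpCoh
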