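import Fermat.Agent.S55.CycH2.H2Maps

/-!
# S55 / GrpCoh — inflation kills `H²` of a cyclic group on torsion modules

Let `G` be a finite cyclic group (generator `s`), `N ≤ G` a (normal) subgroup and `A` a
`G`-module killed by `|N|`.  Then the inflation map `H²(G ⧸ N, A^N) ⟶ H²(G, A)` is zero.

This is the finite-level form of "`H²(Ẑ, M) = 0` for torsion `M`": every class of a finite
cyclic quotient dies after inflation to a larger cyclic quotient whose relative degree is
divisible by the exponent of `M`.

It is a direct corollary of the explicit dictionary `CycH2` (`infl_H2π_cyc`: inflation multiplies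
the invariant of a carry cocycle by the relative degree).

* `orderOf_div_orderOf_mk` : `orderOf s / orderOf (s mod N) = |N|`;
* `infl_two_apply_eq_zero_of_cyclic`, `infl_two_eq_zero_of_cyclic` : the vanishing;
* `infl_two_apply_eq_zero_of_cyclic_of_dvd` : the same with `p • a = 0` and `p ∣ |N|`.
-/

set_option autoImplicit false

universe u

open groupCohomology CategoryTheory

namespace Fermat.Agent.S55.GrpCoh

open Fermat.Agent.S55.CycH2

variable {k G : Type u} [CommRing k] [Group G] [Fintype G]

/-- For a generator `s` of a finite cyclic group `G` and a subgroup `N`, the relative degree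
`orderOf s / orderOf (s mod N)` is the order of `N`. -/
theorem orderOf_div_orderOf_mk (s : G) (hs : ∀ x, x ∈ Subgroup.zpowers s)
    (N : Subgroup G) [N.Normal] :
    orderOf s / orderOf (QuotientGroup.mk s : G ⧸ N) = Nat.card N := by
  have h1 : orderOf s = Nat.card G := orderOf_eq_card_of_forall_mem_zpowers hs
  have h2 : orderOf (QuotientGroup.mk s : G ⧸ N) = Nat.card (G ⧸ N) :=
    orderOf_eq_card_of_forall_mem_zpowers
      (forall_mem_zpowers_map s hs (QuotientGroup.mk' N) (QuotientGroup.mk'_surjective N))
  have h3 : Nat.card G = Nat.card (G ⧸ N) * Nat.card N :=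
    Subgroup.card_eq_card_quotient_mul_card_subgroup N
  rw [h1, h2, h3]
  exact Nat.mul_div_cancel_left _ Nat.card_pos

/-- Inflation from a quotient of a finite cyclic group kills `H²` on modules killed by the order
of the kernel (elementwise form). -/
theorem infl_two_apply_eq_zero_of_cyclic (A : Rep.{u} k G) (s : G)
    (hs : ∀ x, x ∈ Subgroup.zpowers s) (N : Subgroup G) [N.Normal]
    (hN : ∀ a : A, Nat.card N • a = 0)
    (x : groupCohomology (A.quotientToInvariants N) 2) : infl A N 2 x = 0 := by
  classical
  letI : Fintype (G ⧸ N) := Fintype.ofFinite _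
  have hsQ : ∀ y : G ⧸ N, y ∈ Subgroup.zpowers (QuotientGroup.mk s : G ⧸ N) :=
    forall_mem_zpowers_map s hs (QuotientGroup.mk' N) (QuotientGroup.mk'_surjective N)
  obtain ⟨a, ha, rfl⟩ :=
    exists_H2π_eq_cyc (A.quotientToInvariants N) (QuotientGroup.mk s : G ⧸ N) hsQ x
  rw [infl_H2π_cyc A s hs N hsQ a ha (invariant_of_quotient A N a ha), H2π_eq_zero_iff]
  have h0 : (orderOf s / orderOf (QuotientGroup.mk s : G ⧸ N)) • (a.1 : A) = 0 := by
    rw [orderOf_div_orderOf_mk s hs N]
    exact hN a.1
  show cyc A s ((orderOf s / orderOf (QuotientGroup.mk s : G ⧸ N)) • (a.1 : A)) ∈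
    coboundaries₂ A
  rw [h0, cyc_zero]
  exact Submodule.zero_mem _

/-- Inflation from a quotient of a finite cyclic group kills `H²` on modules killed by the order
of the kernel. -/
theorem infl_two_eq_zero_of_cyclic (A : Rep.{u} k G) (s : G)
    (hs : ∀ x, x ∈ Subgroup.zpowers s) (N : Subgroup G) [N.Normal]
    (hN : ∀ a : A, Nat.card N • a = 0) : infl A N 2 = 0 := by
  ext x
  exact infl_two_apply_eq_zero_of_cyclic A s hs N hN x

/-- The same for a module killed by `p`, when `p` divides the order of the kernel. -/
theorem infl_two_apply_eq_zero_of_cyclic_of_dvd (A : Rep.{u} k G) (s : G)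
    (hs : ∀ x, x ∈ Subgroup.zpowers s) (N : Subgroup G) [N.Normal] (p : ℕ)
    (hp : ∀ a : A, p • a = 0) (hpN : p ∣ Nat.card N)
    (x : groupCohomology (A.quotientToInvariants N) 2) : infl A N 2 x = 0 := by
  refine infl_two_apply_eq_zero_of_cyclic A s hs N (fun a => ?_) x
  obtain ⟨m, hm⟩ := hpN
  rw [hm, mul_comm, mul_smul, hp, smul_zero]

end Fermat.Agent.S55.GrpCoh
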