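import Fermat.Agent.S55.GrpCoh.Defs

/-!
# δ-naturality across a group homomorphism

For a group homomorphism `f : G →* H`, short exact sequences `X` of `H`-representations and `Y` of
`G`-representations, and compatible morphisms `φᵢ : Res(f)(Xᵢ) ⟶ Yᵢ`, the connecting maps commute
with the maps `groupCohomology.map f φᵢ`.  Specialisations: restriction to a subgroup and inflation
from a quotient.
-/

set_option autoImplicit false

universe u

open CategoryTheory

namespace Fermat.Agent.S55.GrpCoh

variable {k G H : Type u} [CommRing k] [Group G] [Group H]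

/-- The morphism of short complexes of cochain complexes induced by a group homomorphism and
compatible morphisms of representations. -/
noncomputable def cochainsShortMap (f : G →* H) {X : ShortComplex (Rep.{u} k H)}
    {Y : ShortComplex (Rep.{u} k G)}
    (φ₁ : Rep.res f X.X₁ ⟶ Y.X₁) (φ₂ : Rep.res f X.X₂ ⟶ Y.X₂) (φ₃ : Rep.res f X.X₃ ⟶ Y.X₃)
    (h₁₂ : (Rep.resFunctor f).map X.f ≫ φ₂ = φ₁ ≫ Y.f)
    (h₂₃ : (Rep.resFunctor f).map X.g ≫ φ₃ = φ₂ ≫ Y.g) :
    X.map (groupCohomology.cochainsFunctor k H) ⟶ Y.map (groupCohomology.cochainsFunctor k G) where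
  τ₁ := groupCohomology.cochainsMap f φ₁
  τ₂ := groupCohomology.cochainsMap f φ₂
  τ₃ := groupCohomology.cochainsMap f φ₃
  comm₁₂ := by
    show groupCohomology.cochainsMap f φ₁ ≫ groupCohomology.cochainsMap (MonoidHom.id G) Y.f =
      groupCohomology.cochainsMap (MonoidHom.id H) X.f ≫ groupCohomology.cochainsMap f φ₂
    rw [← groupCohomology.cochainsMap_comp, ← groupCohomology.cochainsMap_comp]
    exact groupCohomology.cochainsMap_congr rfl (by rw [h₁₂]; rfl)
  comm₂₃ := by
    show groupCohomology.cochainsMap f φ₂ ≫ groupCohomology.cochainsMap (MonoidHom.id G) Y.g =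
      groupCohomology.cochainsMap (MonoidHom.id H) X.g ≫ groupCohomology.cochainsMap f φ₃
    rw [← groupCohomology.cochainsMap_comp, ← groupCohomology.cochainsMap_comp]
    exact groupCohomology.cochainsMap_congr rfl (by rw [h₂₃]; rfl)

/-- Naturality of the connecting homomorphism with respect to a group homomorphism. -/
theorem δ_map_naturality (f : G →* H) {X : ShortComplex (Rep.{u} k H)} {Y : ShortComplex (Rep.{u} k G)}
    (hX : X.ShortExact) (hY : Y.ShortExact)
    (φ₁ : Rep.res f X.X₁ ⟶ Y.X₁) (φ₂ : Rep.res f X.X₂ ⟶ Y.X₂) (φ₃ : Rep.res f X.X₃ ⟶ Y.X₃)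
    (h₁₂ : (Rep.resFunctor f).map X.f ≫ φ₂ = φ₁ ≫ Y.f)
    (h₂₃ : (Rep.resFunctor f).map X.g ≫ φ₃ = φ₂ ≫ Y.g)
    (i j : ℕ) (hij : i + 1 = j) :
    groupCohomology.δ hX i j hij ≫ groupCohomology.map f φ₁ j =
      groupCohomology.map f φ₃ i ≫ groupCohomology.δ hY i j hij :=
  HomologicalComplex.HomologySequence.δ_naturality
    (cochainsShortMap f φ₁ φ₂ φ₃ h₁₂ h₂₃)
    (groupCohomology.map_cochainsFunctor_shortExact hX)
    (groupCohomology.map_cochainsFunctor_shortExact hY) i j hij

/-- The restriction of a short exact sequence to a subgroup (or along any group homomorphism)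
is short exact. -/
theorem shortExact_map_resFunctor (f : G →* H) {X : ShortComplex (Rep.{u} k H)}
    (hX : X.ShortExact) : (X.map (Rep.resFunctor f)).ShortExact :=
  (Rep.shortExact_res f).2 hX

/-- `δ` commutes with restriction along a group homomorphism `f : G →* H`
(`groupCohomology.map f (𝟙 _)`). -/
theorem map_id_δ (f : G →* H) {X : ShortComplex (Rep.{u} k H)} (hX : X.ShortExact)
    (hXf : (X.map (Rep.resFunctor f)).ShortExact) (i j : ℕ) (hij : i + 1 = j) :
    groupCohomology.δ hX i j hij ≫ groupCohomology.map f (𝟙 (Rep.res f X.X₁)) j =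
      groupCohomology.map f (𝟙 (Rep.res f X.X₃)) i ≫ groupCohomology.δ hXf i j hij :=
  δ_map_naturality f hX hXf (𝟙 _) (𝟙 _) (𝟙 _)
    ((Category.comp_id _).trans (Category.id_comp _).symm)
    ((Category.comp_id _).trans (Category.id_comp _).symm) i j hij

/-- `δ` commutes with restriction to a subgroup. -/
theorem rest_δ {X : ShortComplex (Rep.{u} k G)} (hX : X.ShortExact) (K : Subgroup G)
    (hXK : (X.map (Rep.resFunctor K.subtype)).ShortExact) (i j : ℕ) (hij : i + 1 = j) :
    groupCohomology.δ hX i j hij ≫ rest X.X₁ K j =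
      rest X.X₃ K i ≫ groupCohomology.δ hXK i j hij :=
  map_id_δ K.subtype hX hXK i j hij

instance quotientToInvariantsFunctor_preservesZeroMorphisms (N : Subgroup G) [N.Normal] :
    (Rep.quotientToInvariantsFunctor k N).PreservesZeroMorphisms where
  map_zero X Y := by
    ext x
    rfl

/-- `δ` commutes with inflation: for a short exact sequence `X` of `G`-representations whose
sequence of `N`-invariants is still short exact (as `G ⧸ N`-representations). -/
theorem infl_δ {X : ShortComplex (Rep.{u} k G)} (hX : X.ShortExact) (N : Subgroup G) [N.Normal]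
    (hXN : (X.map (Rep.quotientToInvariantsFunctor k N)).ShortExact)
    (i j : ℕ) (hij : i + 1 = j) :
    groupCohomology.δ hXN i j hij ≫ infl X.X₁ N j =
      infl X.X₃ N i ≫ groupCohomology.δ hX i j hij :=
  δ_map_naturality (QuotientGroup.mk' N) hXN hX
    (Rep.ofHom <| X.X₁.ρ.quotientToInvariants_lift N)
    (Rep.ofHom <| X.X₂.ρ.quotientToInvariants_lift N)
    (Rep.ofHom <| X.X₃.ρ.quotientToInvariants_lift N)
    (by ext x; rfl) (by ext x; rfl) i j hij

end Fermat.Agent.S55.GrpCoh
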