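import Fermat.Agent.S55.GrpCoh.Induct

/-!
# S55 / B1 — abstract Hasse principle for `H²`

Let `P` be a property of pairs (group, module) stable under subgroups and under passing to
`(G ⧸ N, A^N)` (`IsGaloisLike P`, e.g. `P G A := "G = Gal(L/K) and A = Lˣ"`), and let `LT` be a
predicate "locally trivial" on degree-2 classes which is

* stable under restriction to subgroups (`IsLocalTriv.res`), and
* reflected by inflation (`IsLocalTriv.quot`: if `infl y` is locally trivial then so is `y`;
  in arithmetic this is "local inflation is injective", i.e. local Hilbert 90).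

If `H¹ = 0` for groups of prime order (Hilbert 90) and locally trivial classes vanish for groups
of prime order (the Hasse norm theorem for cyclic extensions of prime degree), then every locally
trivial class of every finite group in the class vanishes (`eq_zero_of_locallyTrivial`).

`p`-primary variants, which need the two hypotheses only for groups of order `p`:

* `eq_zero_of_locallyTrivial_of_isPGroup`: `G` a finite `p`-group;
* `eq_zero_of_locallyTrivial_of_pow_smul`: `G` finite, `x` killed by a power of `p`.

Proofs: strong induction on `|G|`; Sylow reduction (`eq_zero_of_rest_sylow`,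
`index_smul_eq_zero_of_rest`); for a `p`-group a normal subgroup `N` of order `p` and
inflation–restriction in degree 2 (`infl_rest_exact`, which needs `H¹(N, A) = 0`).
-/

set_option autoImplicit false

universe u

open CategoryTheory

namespace Fermat.Agent.S55.GrpCoh

variable {k : Type u} [CommRing k]

open Induct

/-- A predicate `LT` ("locally trivial") on degree-2 cohomology classes of the pairs
(group, module) of a class `P`, stable under restriction to subgroups and reflected by
inflation from quotients. -/
structure IsLocalTriv (P : ∀ (G : Type u) [Group G], Rep.{u} k G → Prop)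
    (LT : ∀ (G : Type u) [Group G] (A : Rep.{u} k G), groupCohomology A 2 → Prop) : Prop where
  res : ∀ (G : Type u) [Group G] [Finite G] (A : Rep.{u} k G) (H : Subgroup G)
    (x : groupCohomology A 2), P G A → LT G A x → LT H (Rep.res H.subtype A) (rest A H 2 x)
  quot : ∀ (G : Type u) [Group G] [Finite G] (A : Rep.{u} k G) (N : Subgroup G) [N.Normal]
    (y : groupCohomology (A.quotientToInvariants N) 2), P G A → LT G A (infl A N 2 y) →
    LT (G ⧸ N) (A.quotientToInvariants N) y

namespace HassePrinciple

/-- A finite `p`-group whose order is prime has order `p`. -/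
theorem card_eq_of_isPGroup_of_prime {G : Type u} [Group G] [Finite G] {p : ℕ}
    [Fact p.Prime] (hG : IsPGroup p G) (hpr : (Nat.card G).Prime) : Nat.card G = p := by
  obtain ⟨n, hn⟩ := IsPGroup.iff_card.mp hG
  rw [hn] at hpr ⊢
  rw [hpr.eq_one_of_pow, pow_one]

/-- The inductive step common to all variants: if `N ⊴ G` has `H¹(N, A) = 0`, the locally
trivial class `x` restricts to `0` on `N`, and locally trivial classes of `(G ⧸ N, A^N)` vanish,
then `x = 0`. -/
theorem eq_zero_of_normal {P : ∀ (G : Type u) [Group G], Rep.{u} k G → Prop}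
    {LT : ∀ (G : Type u) [Group G] (A : Rep.{u} k G), groupCohomology A 2 → Prop}
    (hLT : IsLocalTriv P LT) {G : Type u} [Group G] [Finite G] (A : Rep.{u} k G) (hA : P G A)
    (N : Subgroup G) [N.Normal] (hN1 : VanishOn A N 1)
    (x : groupCohomology A 2) (hx : LT G A x) (hxN : rest A N 2 x = 0)
    (hQ : ∀ y : groupCohomology (A.quotientToInvariants N) 2,
      LT (G ⧸ N) (A.quotientToInvariants N) y → y = 0) : x = 0 := by
  have hvan : ∀ i, 1 ≤ i → i < 2 → VanishOn A N i := by
    intro i h1 h2
    obtain rfl : i = 1 := by omega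
    exact hN1
  obtain ⟨y, rfl⟩ := infl_rest_exact A N 2 (by norm_num) hvan x hxN
  rw [hQ y (hLT.quot G A N y hA hx), map_zero]

end HassePrinciple

open HassePrinciple

/-- **Abstract Hasse principle, `p`-group form.** If `H¹` vanishes and locally trivial degree-2
classes vanish for all groups of order `p` in the class `P`, then locally trivial degree-2 classes
vanish for all finite `p`-groups in the class. -/
theorem eq_zero_of_locallyTrivial_of_isPGroup (p : ℕ) [hp : Fact p.Prime]
    (P : ∀ (G : Type u) [Group G], Rep.{u} k G → Prop) (hP : IsGaloisLike P)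
    (LT : ∀ (G : Type u) [Group G] (A : Rep.{u} k G), groupCohomology A 2 → Prop)
    (hLT : IsLocalTriv P LT)
    (h1 : ∀ (G : Type u) [Group G] [Finite G] (A : Rep.{u} k G), P G A →
      Nat.card G = p → Limits.IsZero (groupCohomology A 1))
    (hprime : ∀ (G : Type u) [Group G] [Finite G] (A : Rep.{u} k G), P G A →
      Nat.card G = p → ∀ x : groupCohomology A 2, LT G A x → x = 0)
    (G : Type u) [Group G] [Finite G] (hG : IsPGroup p G) (A : Rep.{u} k G) (hA : P G A)
    (x : groupCohomology A 2) (hx : LT G A x) : x = 0 := by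
  suffices H : ∀ n : ℕ, ∀ (G : Type u) [Group G] [Finite G] (A : Rep.{u} k G),
      Nat.card G = n → IsPGroup p G → P G A → ∀ x : groupCohomology A 2, LT G A x → x = 0 from
    H _ G A rfl hG hA x hx
  intro n
  induction n using Nat.strong_induction_on with
  | _ n ih =>
    intro G _ _ A hn hG hA x hx
    subst hn
    by_cases h1' : Nat.card G = 1
    · have : Subsingleton G := (Nat.card_eq_one_iff_unique.mp h1').1
      exact (ModuleCat.subsingleton_of_isZero
        (isZero_groupCohomology_succ_of_subsingleton A 1)).elim _ _
    by_cases hpr : (Nat.card G).Prime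
    · exact hprime G A hA (card_eq_of_isPGroup_of_prime hG hpr) x hx
    have : Nontrivial G := by
      rw [← Finite.one_lt_card_iff_nontrivial]
      have : 0 < Nat.card G := Nat.card_pos
      omega
    obtain ⟨N, hNn, hNc⟩ := exists_normal_card_eq_prime hG
    obtain ⟨-, hlt2⟩ := card_lt_of_normal_prime hpr hp.out N hNc
    have hPN : P N (Rep.res N.subtype A) := hP.res G A N hA
    have hN1 : VanishOn A N 1 := h1 N (Rep.res N.subtype A) hPN hNc
    have hxN : rest A N 2 x = 0 :=
      hprime N (Rep.res N.subtype A) hPN hNc _ (hLT.res G A N x hA hx)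
    exact eq_zero_of_normal hLT A hA N hN1 x hx hxN fun y hy =>
      ih _ hlt2 (G ⧸ N) (A.quotientToInvariants N) rfl (hG.to_quotient N)
        (hP.quot G A N hA) y hy

/-- **Abstract Hasse principle.** If `H¹` vanishes and locally trivial degree-2 classes vanish for
all groups of prime order in the class `P` (Hilbert 90 and the Hasse norm theorem for cyclic
extensions of prime degree), then locally trivial degree-2 classes vanish for all finite groups
in the class. -/
theorem eq_zero_of_locallyTrivial
    (P : ∀ (G : Type u) [Group G], Rep.{u} k G → Prop) (hP : IsGaloisLike P)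
    (LT : ∀ (G : Type u) [Group G] (A : Rep.{u} k G), groupCohomology A 2 → Prop)
    (hLT : IsLocalTriv P LT)
    (h1 : ∀ (G : Type u) [Group G] [Finite G] (A : Rep.{u} k G), P G A →
      (Nat.card G).Prime → Limits.IsZero (groupCohomology A 1))
    (hprime : ∀ (G : Type u) [Group G] [Finite G] (A : Rep.{u} k G), P G A →
      (Nat.card G).Prime → ∀ x : groupCohomology A 2, LT G A x → x = 0)
    (G : Type u) [Group G] [Finite G] (A : Rep.{u} k G) (hA : P G A)
    (x : groupCohomology A 2) (hx : LT G A x) : x = 0 := by
  suffices H : ∀ n : ℕ, ∀ (G : Type u) [Group G] [Finite G] (A : Rep.{u} k G),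
      Nat.card G = n → P G A → ∀ x : groupCohomology A 2, LT G A x → x = 0 from
    H _ G A rfl hA x hx
  intro n
  induction n using Nat.strong_induction_on with
  | _ n ih =>
    intro G _ _ A hn hA x hx
    subst hn
    by_cases h1' : Nat.card G = 1
    · have : Subsingleton G := (Nat.card_eq_one_iff_unique.mp h1').1
      exact (ModuleCat.subsingleton_of_isZero
        (isZero_groupCohomology_succ_of_subsingleton A 1)).elim _ _
    by_cases hpr : (Nat.card G).Prime
    · exact hprime G A hA hpr x hx
    have : Nontrivial G := by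
      rw [← Finite.one_lt_card_iff_nontrivial]
      have : 0 < Nat.card G := Nat.card_pos
      omega
    by_cases hpg : ∃ p : ℕ, p.Prime ∧ IsPGroup p G
    · obtain ⟨p, hp, hG⟩ := hpg
      have : Fact p.Prime := ⟨hp⟩
      obtain ⟨N, hNn, hNc⟩ := exists_normal_card_eq_prime hG
      obtain ⟨-, hlt2⟩ := card_lt_of_normal_prime hpr hp N hNc
      have hPN : P N (Rep.res N.subtype A) := hP.res G A N hA
      have hN1 : VanishOn A N 1 := h1 N (Rep.res N.subtype A) hPN (hNc ▸ hp)
      have hxN : rest A N 2 x = 0 :=
        hprime N (Rep.res N.subtype A) hPN (hNc ▸ hp) _ (hLT.res G A N x hA hx)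
      exact eq_zero_of_normal hLT A hA N hN1 x hx hxN fun y hy =>
        ih _ hlt2 (G ⧸ N) (A.quotientToInvariants N) rfl (hP.quot G A N hA) y hy
    · refine eq_zero_of_rest_sylow A 2 (by norm_num) x fun p hp => ?_
      have : Fact p.Prime := ⟨hp⟩
      obtain ⟨Q⟩ : Nonempty (Sylow p G) := inferInstance
      exact ⟨Q, ih _ (card_sylow_lt hpg Q) (Q : Subgroup G)
        (Rep.res (Q : Subgroup G).subtype A) rfl (hP.res G A _ hA) _
        (hLT.res G A _ x hA hx)⟩

/-- **Abstract Hasse principle, `p`-primary form.** If `H¹` vanishes and locally trivial degree-2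
classes vanish for all groups of order `p` in the class `P`, then every locally trivial degree-2
class killed by a power of `p` vanishes, for all finite groups in the class. -/
theorem eq_zero_of_locallyTrivial_of_pow_smul (p : ℕ) [hp : Fact p.Prime]
    (P : ∀ (G : Type u) [Group G], Rep.{u} k G → Prop) (hP : IsGaloisLike P)
    (LT : ∀ (G : Type u) [Group G] (A : Rep.{u} k G), groupCohomology A 2 → Prop)
    (hLT : IsLocalTriv P LT)
    (h1 : ∀ (G : Type u) [Group G] [Finite G] (A : Rep.{u} k G), P G A →
      Nat.card G = p → Limits.IsZero (groupCohomology A 1))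
    (hprime : ∀ (G : Type u) [Group G] [Finite G] (A : Rep.{u} k G), P G A →
      Nat.card G = p → ∀ x : groupCohomology A 2, LT G A x → x = 0)
    (G : Type u) [Group G] [Finite G] (A : Rep.{u} k G) (hA : P G A)
    (x : groupCohomology A 2) (m : ℕ) (hm : ((p : k) ^ m) • x = 0) (hx : LT G A x) : x = 0 := by
  obtain ⟨Q⟩ : Nonempty (Sylow p G) := inferInstance
  have hQ : rest A (Q : Subgroup G) 2 x = 0 :=
    eq_zero_of_locallyTrivial_of_isPGroup p P hP LT hLT h1 hprime (Q : Subgroup G) Q.isPGroup'
      (Rep.res (Q : Subgroup G).subtype A) (hP.res G A _ hA) _ (hLT.res G A _ x hA hx)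
  have hidx : (((Q : Subgroup G).index : ℕ) : k) • x = 0 :=
    index_smul_eq_zero_of_rest A (Q : Subgroup G) 2 x hQ
  have hcop : Nat.Coprime (p ^ m) (Q : Subgroup G).index :=
    Nat.Coprime.pow_left m ((Nat.Prime.coprime_iff_not_dvd hp.out).mpr Q.not_dvd_index)
  have hb : ((p ^ m : ℕ) : ℤ) * Nat.gcdA (p ^ m) (Q : Subgroup G).index +
      (((Q : Subgroup G).index : ℕ) : ℤ) * Nat.gcdB (p ^ m) (Q : Subgroup G).index = 1 := by
    have := Nat.gcd_eq_gcd_ab (p ^ m) (Q : Subgroup G).index
    rw [hcop.gcd_eq_one] at this
    exact_mod_cast this.symm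
  have hk : ((p : k) ^ m) * ((Nat.gcdA (p ^ m) (Q : Subgroup G).index : ℤ) : k) +
      (((Q : Subgroup G).index : ℕ) : k) * ((Nat.gcdB (p ^ m) (Q : Subgroup G).index : ℤ) : k)
      = 1 := by
    have := congrArg (Int.cast : ℤ → k) hb
    push_cast at this
    exact this
  calc x = (1 : k) • x := (one_smul k x).symm
    _ = (((p : k) ^ m) * ((Nat.gcdA (p ^ m) (Q : Subgroup G).index : ℤ) : k) +
        (((Q : Subgroup G).index : ℕ) : k) *
          ((Nat.gcdB (p ^ m) (Q : Subgroup G).index : ℤ) : k)) • x := by rw [hk]
    _ = ((Nat.gcdA (p ^ m) (Q : Subgroup G).index : ℤ) : k) • (((p : k) ^ m) • x) +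
        ((Nat.gcdB (p ^ m) (Q : Subgroup G).index : ℤ) : k) •
          ((((Q : Subgroup G).index : ℕ) : k) • x) := by
        rw [add_smul, smul_smul, smul_smul, mul_comm ((p : k) ^ m),
          mul_comm (((Q : Subgroup G).index : ℕ) : k)]
    _ = 0 := by rw [hm, hidx, smul_zero, smul_zero, add_zero]

end Fermat.Agent.S55.GrpCoh
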