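import Fermat.Agent.S55.GrpCoh.Coind

/-!
# S55 / B1 — transfer argument and Sylow reduction

If `Hⁿ(H, A) = 0` for a subgroup `H ≤ G` of finite index, then `Hⁿ(G, A)` is killed by `[G : H]`
(the composite `A ⟶ Coind_H^G A ⟶ A` of the unit and the trace is multiplication by the index;
apply Shapiro `groupCohomology.coindIso`). Hence `Hⁿ(G, A) = 0` as soon as it vanishes on all
Sylow subgroups.

The class-wise version (`index_smul_eq_zero_of_rest`: a class restricting to `0` on `H` is killed
by `[G : H]`) is proved without corestriction: injectivity of restriction in degree `0`, an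
explicit cocycle computation in degree `1`, and dimension shifting along
`0 ⟶ A ⟶ Coind_1^G A ⟶ A' ⟶ 0` above.

All auxiliary declarations live in the namespace `Fermat.Agent.S55.GrpCoh.Transfer`.
-/

set_option autoImplicit false

universe u

open CategoryTheory

namespace Fermat.Agent.S55.GrpCoh

variable {k G : Type u} [CommRing k] [Group G]

namespace Transfer

/-! ### The unit and the trace -/

/-- The unit `A ⟶ Coind_H^G Res_H A`, `a ↦ (g ↦ g • a)`. -/
noncomputable def trUnit (A : Rep.{u} k G) (H : Subgroup G) :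
    A ⟶ Rep.coind H.subtype (Rep.res H.subtype A) :=
  Rep.resCoindToHom H.subtype A (Rep.res H.subtype A) (𝟙 _)

open Classical in
/-- The trace `Coind_H^G Res_H A ⟶ A` (counit of the adjunction `Res ⊣ Coind ≅ Ind`). -/
noncomputable def trCounit (A : Rep.{u} k G) (H : Subgroup G) [H.FiniteIndex] :
    Rep.coind H.subtype (Rep.res H.subtype A) ⟶ A :=
  (Rep.coindResAdjunction k H).counit.app A

attribute [local instance] Subgroup.fintypeQuotientOfFiniteIndex in
open Classical in
theorem trCounit_trUnit_apply (A : Rep.{u} k G) (H : Subgroup G) [H.FiniteIndex] (a : A) :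
    (trCounit A H).hom ((trUnit A H).hom a) = (H.index : k) • a := by
  unfold trCounit
  rw [Rep.coindResAdjunction_counit_app]
  simp only [Rep.hom_comp]
  have h1 : ∀ f, (Rep.Hom.hom (Rep.res H.subtype A).indCoindIso.inv) f =
      Rep.coindToInd (Rep.res H.subtype A) f := by
    intro f
    rfl
  have h2 : ∀ (g : G) (x : A), (Rep.Hom.hom ((Rep.indResAdjunction k H.subtype).counit.app A))
      (Representation.IndV.mk H.subtype _ g x) = A.ρ g⁻¹ x := by
    intro g x
    simp [Rep.indResAdjunction, Rep.indResHomEquiv]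
  have h3 : ∀ g : G, ((Rep.Hom.hom (trUnit A H)) a).1 g = A.ρ g a := by
    intro g
    rfl
  rw [Representation.IntertwiningMap.comp_apply, h1, Rep.coindToInd_apply, map_sum]
  rw [Finset.sum_congr rfl (g := fun _ => a)]
  · rw [Finset.sum_const, Finset.card_univ, ← Nat.card_eq_fintype_card,
      Nat.card_congr (QuotientGroup.quotientRightRelEquivQuotientLeftRel H), ← Subgroup.index,
      Nat.cast_smul_eq_nsmul]
  · intro q _
    induction q using Quotient.inductionOn with | h g =>
    simp only [Quotient.liftOn_mk]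
    rw [h2, h3]
    simp

open Classical in
theorem trUnit_trCounit (A : Rep.{u} k G) (H : Subgroup G) [H.FiniteIndex] :
    trUnit A H ≫ trCounit A H = H.index • 𝟙 A := by
  ext a
  have := trCounit_trUnit_apply A H a
  rw [Nat.cast_smul_eq_nsmul] at this
  rw [Rep.hom_comp, Rep.nsmul_hom]
  exact this

theorem map_id_add {A B : Rep.{u} k G} (φ ψ : A ⟶ B) (n : ℕ) :
    groupCohomology.map (MonoidHom.id G) (φ + ψ) n =
      groupCohomology.map (MonoidHom.id G) φ n + groupCohomology.map (MonoidHom.id G) ψ n := by
  have h : groupCohomology.cochainsMap (MonoidHom.id G) (φ + ψ) =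
      groupCohomology.cochainsMap (MonoidHom.id G) φ +
        groupCohomology.cochainsMap (MonoidHom.id G) ψ :=
    (groupCohomology.cochainsFunctor k G).map_add
  rw [groupCohomology.map, h, HomologicalComplex.homologyMap_add]
  rfl

theorem map_id_nsmul {A B : Rep.{u} k G} (m : ℕ) (φ : A ⟶ B) (n : ℕ) :
    groupCohomology.map (MonoidHom.id G) (m • φ) n =
      m • groupCohomology.map (MonoidHom.id G) φ n := by
  induction m with
  | zero =>
    simp only [zero_smul]
    exact (groupCohomology.functor k G n).map_zero _ _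
  | succ m ih => rw [succ_nsmul, map_id_add, ih, succ_nsmul]

/-! ### Degree `0` and degree `1` -/

/-- Restriction is injective on `H⁰`. -/
theorem rest_zero_injective (A : Rep.{u} k G) (H : Subgroup G) (x : groupCohomology A 0)
    (hx : rest A H 0 x = 0) : x = 0 := by
  have h := groupCohomology.map_H0Iso_hom_f_apply (f := H.subtype)
    (φ := 𝟙 (Rep.res H.subtype A)) x
  rw [hx] at h
  simp only [map_zero] at h
  have h' : (groupCohomology.shortComplexH0 A).f ((groupCohomology.H0Iso A).hom x) = 0 := h.symm
  have hinj : Function.Injective ((groupCohomology.shortComplexH0 A).f) :=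
    (ModuleCat.mono_iff_injective _).1 inferInstance
  have h2 : (groupCohomology.H0Iso A).hom x = 0 := hinj (h'.trans (map_zero _).symm)
  have h3 := congrArg (groupCohomology.H0Iso A).inv h2
  simpa using h3

attribute [local instance] Subgroup.fintypeQuotientOfFiniteIndex in
/-- The `H¹` case of `index_smul_eq_zero_of_rest`, by an explicit cocycle computation: if
`z(h) = h • a - a` on `H`, then `z' = z - d a` is constant on left cosets of `H`, and
`[G : H] • z' = d (- ∑_{q ∈ G ⧸ H} z'(q))`. -/
theorem index_smul_eq_zero_of_rest_one (A : Rep.{u} k G) (H : Subgroup G) [H.FiniteIndex]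
    (x : groupCohomology A 1) (hx : rest A H 1 x = 0) : (H.index : k) • x = 0 := by
  classical
  induction x using groupCohomology.H1_induction_on with | @h z =>
  have hx' : groupCohomology.H1π _
      (groupCohomology.mapCocycles₁ H.subtype (𝟙 (Rep.res H.subtype A)) z) = 0 := by
    rw [← groupCohomology.H1π_comp_map_apply]
    exact hx
  rcases (groupCohomology.H1π_eq_zero_iff _).1 hx' with ⟨a₀, ha⟩
  obtain ⟨a, rfl⟩ : ∃ a : A, a = a₀ := ⟨a₀, rfl⟩
  have hz : ∀ h : H, z (h : G) = A.ρ (h : G) a - a := by
    intro h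
    exact (congr_fun ha h).symm
  have hcoc : ∀ g s : G, z (g * s) = A.ρ g (z s) + z g :=
    (groupCohomology.mem_cocycles₁_iff z).1 z.2
  let F0 : G → A := fun g => z g - (A.ρ g a - a)
  have hF0 : ∀ g : G, ∀ h : H, F0 (g * h) = F0 g := by
    intro g h
    simp only [F0]
    rw [hcoc, hz, map_mul]
    simp only [Module.End.mul_apply, map_sub]
    abel
  let F : G ⧸ H → A := fun q => Quotient.liftOn' q F0 (by
    intro x y hxy
    rw [QuotientGroup.leftRel_apply] at hxy
    have := hF0 x ⟨x⁻¹ * y, hxy⟩
    simp only [mul_inv_cancel_left] at this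
    exact this.symm)
  have hact : ∀ g s : G, A.ρ g (F0 s) = F0 (g * s) - F0 g := by
    intro g s
    simp only [F0]
    rw [hcoc, map_mul]
    simp only [Module.End.mul_apply, map_sub]
    abel
  let b : A := ∑ q : G ⧸ H, F q
  have hb : ∀ g : G, A.ρ g b - b = - ((H.index : k) • F0 g) := by
    intro g
    have h1 : A.ρ g b = ∑ q : G ⧸ H, (F (g • q) - F0 g) := by
      simp only [b, map_sum]
      refine Finset.sum_congr rfl fun q _ => ?_
      induction q using Quotient.inductionOn' with | h s =>
      exact hact g s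
    have h2 : ∑ q : G ⧸ H, F (g • q) = b :=
      Fintype.sum_equiv (MulAction.toPerm g) _ _ (fun _ => rfl)
    rw [h1, Finset.sum_sub_distrib, Finset.sum_const, Finset.card_univ, h2,
      ← Nat.card_eq_fintype_card, ← Subgroup.index, Nat.cast_smul_eq_nsmul]
    abel
  rw [← map_smul, groupCohomology.H1π_eq_zero_iff]
  refine ⟨(H.index : k) • a - b, funext fun g => ?_⟩
  show A.ρ g ((H.index : k) • a - b) - ((H.index : k) • a - b) = (H.index : k) • z g
  rw [map_sub, map_smul, sub_sub_sub_comm, hb g, ← smul_sub, sub_neg_eq_add, ← smul_add]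
  congr 1
  simp only [F0]
  abel

/-! ### Naturality of the connecting homomorphism and dimension shifting -/

/-- General naturality of the connecting homomorphism with respect to a change of group. -/
theorem δ_map_nat {G' : Type u} [Group G'] (f : G' →* G)
    {X : ShortComplex (Rep.{u} k G)} (hX : X.ShortExact)
    {Y : ShortComplex (Rep.{u} k G')} (hY : Y.ShortExact)
    (φ₁ : Rep.res f X.X₁ ⟶ Y.X₁) (φ₂ : Rep.res f X.X₂ ⟶ Y.X₂) (φ₃ : Rep.res f X.X₃ ⟶ Y.X₃)
    (h₁₂ : (Rep.resFunctor f).map X.f ≫ φ₂ = φ₁ ≫ Y.f)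
    (h₂₃ : (Rep.resFunctor f).map X.g ≫ φ₃ = φ₂ ≫ Y.g) (i j : ℕ) (hij : i + 1 = j) :
    groupCohomology.δ hX i j hij ≫ groupCohomology.map f φ₁ j =
      groupCohomology.map f φ₃ i ≫ groupCohomology.δ hY i j hij := by
  have e1 : groupCohomology.cochainsMap f φ₁ ≫
      groupCohomology.cochainsMap (MonoidHom.id G') Y.f =
        groupCohomology.cochainsMap f (φ₁ ≫ Y.f) :=
    (groupCohomology.cochainsMap_comp f (MonoidHom.id G') φ₁ Y.f).symm
  have e2 : groupCohomology.cochainsMap (MonoidHom.id G) X.f ≫
      groupCohomology.cochainsMap f φ₂ =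
        groupCohomology.cochainsMap f ((Rep.resFunctor f).map X.f ≫ φ₂) :=
    (groupCohomology.cochainsMap_comp (MonoidHom.id G) f X.f φ₂).symm
  have e3 : groupCohomology.cochainsMap f φ₂ ≫
      groupCohomology.cochainsMap (MonoidHom.id G') Y.g =
        groupCohomology.cochainsMap f (φ₂ ≫ Y.g) :=
    (groupCohomology.cochainsMap_comp f (MonoidHom.id G') φ₂ Y.g).symm
  have e4 : groupCohomology.cochainsMap (MonoidHom.id G) X.g ≫
      groupCohomology.cochainsMap f φ₃ =
        groupCohomology.cochainsMap f ((Rep.resFunctor f).map X.g ≫ φ₃) :=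
    (groupCohomology.cochainsMap_comp (MonoidHom.id G) f X.g φ₃).symm
  let Φ : X.map (groupCohomology.cochainsFunctor k G) ⟶
      Y.map (groupCohomology.cochainsFunctor k G') :=
    { τ₁ := groupCohomology.cochainsMap f φ₁
      τ₂ := groupCohomology.cochainsMap f φ₂
      τ₃ := groupCohomology.cochainsMap f φ₃
      comm₁₂ := by
        refine e1.trans ?_
        rw [← h₁₂]
        exact e2.symm
      comm₂₃ := by
        refine e3.trans ?_
        rw [← h₂₃]
        exact e4.symm }
  exact HomologicalComplex.HomologySequence.δ_naturality Φ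
    (groupCohomology.map_cochainsFunctor_shortExact hX)
    (groupCohomology.map_cochainsFunctor_shortExact hY) i j hij

/-- The connecting homomorphism commutes with restriction to a subgroup. -/
theorem rest_δ_nat {X : ShortComplex (Rep.{u} k G)} (hX : X.ShortExact) (H : Subgroup G)
    (i j : ℕ) (hij : i + 1 = j) :
    groupCohomology.δ hX i j hij ≫ rest X.X₁ H j =
      rest X.X₃ H i ≫ groupCohomology.δ ((Rep.shortExact_res H.subtype).2 hX) i j hij :=
  δ_map_nat H.subtype hX ((Rep.shortExact_res H.subtype).2 hX) (𝟙 _) (𝟙 _) (𝟙 _)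
    ((Category.comp_id _).trans (Category.id_comp _).symm)
    ((Category.comp_id _).trans (Category.id_comp _).symm) i j hij

/-- A class in positive degree restricting to `0` on a finite-index subgroup `H` is killed by
`[G : H]` (dimension shifting down to `H¹`). -/
theorem index_smul_eq_zero_of_rest_succ (H : Subgroup G) [H.FiniteIndex] :
    ∀ (n : ℕ) (A : Rep.{u} k G) (x : groupCohomology A (n + 1)), rest A H (n + 1) x = 0 →
      (H.index : k) • x = 0 := by
  intro n
  induction n with
  | zero => exact fun A x hx => index_smul_eq_zero_of_rest_one A H x hx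
  | succ n ih =>
    intro A x hx
    have hS := shiftSC_shortExact A
    have hSH := (Rep.shortExact_res H.subtype).2 hS
    have hepi : Epi (groupCohomology.δ hS (n + 1) (n + 2) rfl) :=
      groupCohomology.epi_δ_of_isZero hS (n + 1) (isZero_coind₁ A (n + 1))
    obtain ⟨y, rfl⟩ := (ModuleCat.epi_iff_surjective _).1 hepi x
    have hmono : Mono (groupCohomology.δ hSH (n + 1) (n + 2) rfl) :=
      groupCohomology.mono_δ_of_isZero hSH (n + 1) (vanishOn_coind₁ A H n)
    have hnat := rest_δ_nat hS H (n + 1) (n + 2) rfl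
    have h1 : groupCohomology.δ hSH (n + 1) (n + 2) rfl (rest (shift A) H (n + 1) y) = 0 := by
      have := congrArg (fun f => (ModuleCat.Hom.hom f) y) hnat
      exact this.symm.trans hx
    have h2 : rest (shift A) H (n + 1) y = 0 :=
      (ModuleCat.mono_iff_injective _).1 hmono (h1.trans (map_zero _).symm)
    have h3 := ih (shift A) y h2
    rw [← map_smul, h3, map_zero]

/-- An element of an additive group killed, for every prime `p`, by some integer prime to `p`
is zero. -/
theorem eq_zero_of_forall_prime {M : Type*} [AddCommGroup M] (x : M)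
    (h : ∀ p : ℕ, p.Prime → ∃ m : ℕ, ¬ p ∣ m ∧ m • x = 0) : x = 0 := by
  by_contra hx
  have h1 : addOrderOf x ≠ 1 := fun h1 => hx (AddMonoid.addOrderOf_eq_one_iff.1 h1)
  obtain ⟨p, hp, hpd⟩ := Nat.exists_prime_and_dvd h1
  obtain ⟨m, hm, hmx⟩ := h p hp
  exact hm (hpd.trans (addOrderOf_dvd_of_nsmul_eq_zero hmx))

end Transfer

/-- If `Hⁿ(H, A) = 0` and `H` has finite index in `G` then `[G : H]` kills `Hⁿ(G, A)`. -/
theorem index_smul_eq_zero (A : Rep.{u} k G) (H : Subgroup G) [H.FiniteIndex] (n : ℕ)
    (hH : VanishOn A H n) (x : groupCohomology A n) :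
    (H.index : k) • x = 0 := by
  classical
  have h0 : Limits.IsZero (groupCohomology (Rep.coind H.subtype (Rep.res H.subtype A)) n) :=
    hH.of_iso (groupCohomology.coindIso (Rep.res H.subtype A) n)
  have h1 : groupCohomology.map (MonoidHom.id G) (Transfer.trUnit A H) n ≫
      groupCohomology.map (MonoidHom.id G) (Transfer.trCounit A H) n = H.index • 𝟙 _ := by
    rw [← groupCohomology.map_id_comp]
    refine (congrArg (fun φ => groupCohomology.map (MonoidHom.id G) φ n)
      (Transfer.trUnit_trCounit A H)).trans ?_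
    rw [Transfer.map_id_nsmul, groupCohomology.map_id]
  have h2 : groupCohomology.map (MonoidHom.id G) (Transfer.trUnit A H) n = 0 :=
    h0.eq_of_tgt _ _
  rw [h2, Limits.zero_comp] at h1
  have h3 := congrArg (fun f => (ModuleCat.Hom.hom f) x) h1
  simp only [ModuleCat.hom_zero, LinearMap.zero_apply] at h3
  rw [Nat.cast_smul_eq_nsmul]
  simpa using h3.symm

/-- A class restricting to `0` on a finite-index subgroup `H` is killed by `[G : H]`. -/
theorem index_smul_eq_zero_of_rest (A : Rep.{u} k G) (H : Subgroup G) [H.FiniteIndex] (n : ℕ)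
    (x : groupCohomology A n) (hx : rest A H n x = 0) :
    (H.index : k) • x = 0 := by
  cases n with
  | zero => rw [Transfer.rest_zero_injective A H x hx, smul_zero]
  | succ n => exact Transfer.index_smul_eq_zero_of_rest_succ H n A x hx

/-- `Hⁿ(G, A)` is killed by `|G|` for `n ≥ 1` (finite `G`). -/
theorem card_smul_eq_zero [Finite G] (A : Rep.{u} k G) (n : ℕ) (hn : 1 ≤ n)
    (x : groupCohomology A n) : (Nat.card G : k) • x = 0 := by
  obtain ⟨m, rfl⟩ : ∃ m, n = m + 1 := ⟨n - 1, by omega⟩
  have h := index_smul_eq_zero A (⊥ : Subgroup G) (m + 1)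
    (isZero_groupCohomology_succ_of_subsingleton _ m) x
  rwa [Subgroup.index_bot] at h

set_option linter.unusedVariables false in
/-- Sylow reduction: `Hⁿ(G, A) = 0` if it vanishes on every Sylow subgroup. -/
theorem isZero_of_sylow [Finite G] (A : Rep.{u} k G) (n : ℕ) (hn : 1 ≤ n)
    (h : ∀ p : ℕ, p.Prime → ∃ P : Sylow p G, VanishOn A (P : Subgroup G) n) :
    Limits.IsZero (groupCohomology A n) := by
  have hsub : Subsingleton (groupCohomology A n) := by
    refine ⟨fun x y => ?_⟩
    have key : ∀ z : groupCohomology A n, z = 0 := by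
      intro z
      refine Transfer.eq_zero_of_forall_prime z fun p hp => ?_
      obtain ⟨P, hP⟩ := h p hp
      have : Fact p.Prime := ⟨hp⟩
      refine ⟨(P : Subgroup G).index, P.not_dvd_index, ?_⟩
      rw [← Nat.cast_smul_eq_nsmul k]
      exact index_smul_eq_zero A (P : Subgroup G) n hP z
    rw [key x, key y]
  exact ModuleCat.isZero_of_subsingleton _

set_option linter.unusedVariables false in
/-- Sylow detection of classes: `x = 0` if for every prime `p`, `x` restricts to `0` on some
Sylow `p`-subgroup. -/
theorem eq_zero_of_rest_sylow [Finite G] (A : Rep.{u} k G) (n : ℕ) (hn : 1 ≤ n)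
    (x : groupCohomology A n)
    (h : ∀ p : ℕ, p.Prime → ∃ P : Sylow p G, rest A (P : Subgroup G) n x = 0) :
    x = 0 := by
  refine Transfer.eq_zero_of_forall_prime x fun p hp => ?_
  obtain ⟨P, hP⟩ := h p hp
  have : Fact p.Prime := ⟨hp⟩
  refine ⟨(P : Subgroup G).index, P.not_dvd_index, ?_⟩
  rw [← Nat.cast_smul_eq_nsmul k]
  exact index_smul_eq_zero_of_rest A (P : Subgroup G) n x hP

end Fermat.Agent.S55.GrpCoh
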