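import Fermat.Agent.S55.GrpCoh.InfRes
import Fermat.Agent.S55.GrpCoh.Transfer

/-!
# S55 / B1 — "solvable induction" principles for `H¹` and `H²`

Let `P` be a property of pairs (group, module) stable under restriction to subgroups and under
passing to `(G ⧸ N, A^N)` (e.g. `P G A := "G = Gal(L/K) and A = Lˣ"`, or idèle classes).

* `isZero_H1_of_class`: if `H¹(G, A) = 0` whenever `P G A` and `|G|` is prime, then
  `H¹(G, A) = 0` for all finite `G` with `P G A`.
* `card_H2_le_of_class`: if moreover `|H²(G, A)| ≤ |G|` whenever `|G|` is prime, then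
  `|H²(G, A)| ≤ |G|` for all finite `G` with `P G A`.

Proofs: Sylow reduction (`eq_zero_of_rest_sylow`), then for a nontrivial `p`-group a central
subgroup `N` of order `p` and inflation–restriction in degree 1 (Mathlib) resp. degree 2
(`infl_rest_exact`, which needs `H¹(N, A) = 0`), induction on `|G|`.
-/

set_option autoImplicit false

universe u

open CategoryTheory

namespace Fermat.Agent.S55.GrpCoh

variable {k : Type u} [CommRing k]

namespace Induct

/-- A nontrivial finite `p`-group has a normal (indeed central) subgroup of order `p`. -/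
theorem exists_normal_card_eq_prime {G : Type u} [Group G] [Finite G] {p : ℕ} [hp : Fact p.Prime]
    (hG : IsPGroup p G) [Nontrivial G] : ∃ N : Subgroup G, N.Normal ∧ Nat.card N = p := by
  have : Nontrivial (Subgroup.center G) := hG.center_nontrivial
  have hZ : IsPGroup p (Subgroup.center G) := hG.to_subgroup _
  obtain ⟨n, hn⟩ := IsPGroup.iff_card.mp hZ
  have hdvd : p ∣ Nat.card (Subgroup.center G) := by
    rw [hn]
    have hn0 : n ≠ 0 := by
      rintro rfl
      rw [pow_zero] at hn
      have := Finite.one_lt_card_iff_nontrivial.mpr ‹Nontrivial (Subgroup.center G)›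
      omega
    exact dvd_pow_self p hn0
  obtain ⟨z, hz⟩ := exists_prime_orderOf_dvd_card' p hdvd
  refine ⟨Subgroup.zpowers (z : G), ⟨?_⟩, ?_⟩
  · intro n hn g
    obtain ⟨i, rfl⟩ := Subgroup.mem_zpowers_iff.mp hn
    have hc : (z : G) ^ i ∈ Subgroup.center G := Subgroup.zpow_mem _ z.2 i
    have : g * (z : G) ^ i * g⁻¹ = (z : G) ^ i := by
      rw [(Subgroup.mem_center_iff.mp hc g), mul_inv_cancel_right]
    rw [this]
    exact Subgroup.zpow_mem_zpowers _ i
  · rw [Nat.card_zpowers, Subgroup.orderOf_coe, hz]


/-- In a finite group which is not of prime-power order every Sylow subgroup is proper. -/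
theorem card_sylow_lt {G : Type u} [Group G] [Finite G] (hG : ¬ ∃ p : ℕ, p.Prime ∧ IsPGroup p G)
    {p : ℕ} [hp : Fact p.Prime] (Q : Sylow p G) : Nat.card Q < Nat.card G := by
  refine lt_of_le_of_ne (Nat.le_of_dvd Nat.card_pos (Subgroup.card_subgroup_dvd_card _)) ?_
  intro h
  apply hG
  obtain ⟨n, hn⟩ := IsPGroup.iff_card.mp Q.isPGroup'
  exact ⟨p, hp.out, IsPGroup.of_card (n := n) (h ▸ hn)⟩

/-- Cardinalities of a normal subgroup of prime order `p` and of the quotient, in a group
whose order is not prime. -/
theorem card_lt_of_normal_prime {G : Type u} [Group G] [Finite G] (hnp : ¬ (Nat.card G).Prime)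
    {p : ℕ} (hp : p.Prime) (N : Subgroup G) (hN : Nat.card N = p) :
    Nat.card N < Nat.card G ∧ Nat.card (G ⧸ N) < Nat.card G := by
  have h1 : Nat.card G = Nat.card (G ⧸ N) * Nat.card N :=
    Subgroup.card_eq_card_quotient_mul_card_subgroup N
  have hq : 0 < Nat.card (G ⧸ N) := Nat.card_pos
  have hq1 : Nat.card (G ⧸ N) ≠ 1 := by
    intro h
    rw [h, one_mul, hN] at h1
    exact hnp (h1 ▸ hp)
  have hp2 := hp.two_le
  have hq2 : 2 ≤ Nat.card (G ⧸ N) := by omega
  rw [hN] at h1 ⊢
  have e1 : 2 * p ≤ Nat.card (G ⧸ N) * p := Nat.mul_le_mul_right p hq2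
  have e2 : Nat.card (G ⧸ N) * 2 ≤ Nat.card (G ⧸ N) * p := Nat.mul_le_mul_left _ hp2
  rw [h1]
  constructor
  · omega
  · omega

/-- Counting in a sequence exact in the middle. -/
theorem finite_card_le_of_exact {L M M' : Type*} [AddCommGroup L] [AddCommGroup M]
    [AddCommGroup M'] (g : L →+ M) (f : M →+ M') (h : ∀ x, f x = 0 → ∃ y, g y = x)
    [Finite L] [Finite M'] : Finite M ∧ Nat.card M ≤ Nat.card L * Nat.card M' := by
  classical
  let s : f.range → M := fun t => t.2.choose
  have hs : ∀ t : f.range, f (s t) = t := fun t => t.2.choose_spec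
  let φ : L × f.range → M := fun yt => g yt.1 + s yt.2
  have hφ : Function.Surjective φ := by
    intro x
    obtain ⟨y, hy⟩ := h (x - s ⟨f x, x, rfl⟩) (by rw [map_sub, hs, sub_self])
    exact ⟨(y, ⟨f x, x, rfl⟩), by simp [φ, hy]⟩
  have hfin : Finite M := Finite.of_surjective φ hφ
  refine ⟨hfin, ?_⟩
  calc Nat.card M ≤ Nat.card (L × f.range) := Nat.card_le_card_of_surjective φ hφ
    _ = Nat.card L * Nat.card f.range := Nat.card_prod _ _
    _ ≤ Nat.card L * Nat.card M' :=
        Nat.mul_le_mul_left _ (Nat.card_le_card_of_injective _ Subtype.val_injective)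

end Induct

open Induct

/-- Stability of a property of (group, module) pairs under subgroups and quotients. -/
structure IsGaloisLike (P : ∀ (G : Type u) [Group G], Rep.{u} k G → Prop) : Prop where
  res : ∀ (G : Type u) [Group G] (A : Rep.{u} k G) (H : Subgroup G),
    P G A → P H (Rep.res H.subtype A)
  quot : ∀ (G : Type u) [Group G] (A : Rep.{u} k G) (N : Subgroup G) [N.Normal],
    P G A → P (G ⧸ N) (A.quotientToInvariants N)

/-- `H¹` vanishes for all finite groups as soon as it does for groups of prime order. -/
theorem isZero_H1_of_class (P : ∀ (G : Type u) [Group G], Rep.{u} k G → Prop)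
    (hP : IsGaloisLike P)
    (hprime : ∀ (G : Type u) [Group G] [Finite G] (A : Rep.{u} k G), P G A →
      (Nat.card G).Prime → Limits.IsZero (groupCohomology A 1))
    (G : Type u) [Group G] [Finite G] (A : Rep.{u} k G) (hA : P G A) :
    Limits.IsZero (groupCohomology A 1) := by
  suffices H : ∀ n : ℕ, ∀ (G : Type u) [Group G] [Finite G] (A : Rep.{u} k G),
      Nat.card G = n → P G A → Limits.IsZero (groupCohomology A 1) from H _ G A rfl hA
  intro n
  induction n using Nat.strong_induction_on with
  | _ n ih =>
    intro G _ _ A hn hA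
    subst hn
    by_cases h1 : Nat.card G = 1
    · have : Subsingleton G := (Nat.card_eq_one_iff_unique.mp h1).1
      exact isZero_groupCohomology_succ_of_subsingleton A 0
    by_cases hpr : (Nat.card G).Prime
    · exact hprime G A hA hpr
    have : Nontrivial G := by
      rw [← Finite.one_lt_card_iff_nontrivial]
      have : 0 < Nat.card G := Nat.card_pos
      omega
    rw [ModuleCat.isZero_iff_subsingleton]
    suffices h0 : ∀ x : groupCohomology A 1, x = 0 from ⟨fun x y => (h0 x).trans (h0 y).symm⟩
    intro x
    by_cases hpg : ∃ p : ℕ, p.Prime ∧ IsPGroup p G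
    · obtain ⟨p, hp, hG⟩ := hpg
      have : Fact p.Prime := ⟨hp⟩
      obtain ⟨N, hNn, hNc⟩ := exists_normal_card_eq_prime hG
      obtain ⟨hlt1, hlt2⟩ := card_lt_of_normal_prime hpr hp N hNc
      have hN1 : VanishOn A N 1 := ih _ hlt1 N (Rep.res N.subtype A) rfl (hP.res G A N hA)
      have hQ1 : Limits.IsZero (groupCohomology (A.quotientToInvariants N) 1) :=
        ih _ hlt2 (G ⧸ N) (A.quotientToInvariants N) rfl (hP.quot G A N hA)
      have hx : rest A N 1 x = 0 :=
        (ModuleCat.subsingleton_of_isZero hN1).elim _ _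
      obtain ⟨y, rfl⟩ := infl_rest_exact A N 1 le_rfl (fun i h1 h2 => absurd h1 (by omega)) x hx
      have hy : y = 0 := (ModuleCat.subsingleton_of_isZero hQ1).elim _ _
      rw [hy, map_zero]
    · refine eq_zero_of_rest_sylow A 1 le_rfl x fun p hp => ?_
      have : Fact p.Prime := ⟨hp⟩
      obtain ⟨Q⟩ : Nonempty (Sylow p G) := inferInstance
      refine ⟨Q, ?_⟩
      have hQ1 : VanishOn A (Q : Subgroup G) 1 :=
        ih _ (card_sylow_lt hpg Q) (Q : Subgroup G) (Rep.res (Q : Subgroup G).subtype A) rfl
          (hP.res G A _ hA)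
      exact (ModuleCat.subsingleton_of_isZero hQ1).elim _ _

/-- `|H²(G, A)| ≤ |G|` for all finite groups as soon as `H¹ = 0` and `|H²| ≤ |G|` hold for
groups of prime order. -/
theorem card_H2_le_of_class (P : ∀ (G : Type u) [Group G], Rep.{u} k G → Prop)
    (hP : IsGaloisLike P)
    (hprime1 : ∀ (G : Type u) [Group G] [Finite G] (A : Rep.{u} k G), P G A →
      (Nat.card G).Prime → Limits.IsZero (groupCohomology A 1))
    (hprime2 : ∀ (G : Type u) [Group G] [Finite G] (A : Rep.{u} k G), P G A →
      (Nat.card G).Prime →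
        Finite (groupCohomology A 2) ∧ Nat.card (groupCohomology A 2) ≤ Nat.card G)
    (G : Type u) [Group G] [Finite G] (A : Rep.{u} k G) (hA : P G A) :
    Finite (groupCohomology A 2) ∧ Nat.card (groupCohomology A 2) ≤ Nat.card G := by
  suffices H : ∀ n : ℕ, ∀ (G : Type u) [Group G] [Finite G] (A : Rep.{u} k G),
      Nat.card G = n → P G A →
        Finite (groupCohomology A 2) ∧ Nat.card (groupCohomology A 2) ≤ Nat.card G from
    H _ G A rfl hA
  intro n
  induction n using Nat.strong_induction_on with
  | _ n ih =>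
    intro G _ _ A hn hA
    subst hn
    by_cases h1 : Nat.card G = 1
    · have : Subsingleton G := (Nat.card_eq_one_iff_unique.mp h1).1
      have : Subsingleton (groupCohomology A 2) :=
        ModuleCat.subsingleton_of_isZero (isZero_groupCohomology_succ_of_subsingleton A 1)
      exact ⟨inferInstance, by rw [Nat.card_of_subsingleton (0 : groupCohomology A 2), h1]⟩
    by_cases hpr : (Nat.card G).Prime
    · exact hprime2 G A hA hpr
    have : Nontrivial G := by
      rw [← Finite.one_lt_card_iff_nontrivial]
      have : 0 < Nat.card G := Nat.card_pos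
      omega
    by_cases hpg : ∃ p : ℕ, p.Prime ∧ IsPGroup p G
    · obtain ⟨p, hp, hG⟩ := hpg
      have : Fact p.Prime := ⟨hp⟩
      obtain ⟨N, hNn, hNc⟩ := exists_normal_card_eq_prime hG
      obtain ⟨hlt1, hlt2⟩ := card_lt_of_normal_prime hpr hp N hNc
      have hN1 : VanishOn A N 1 :=
        hprime1 N (Rep.res N.subtype A) (hP.res G A N hA) (hNc ▸ hp)
      obtain ⟨hfN, hcN⟩ := ih _ hlt1 N (Rep.res N.subtype A) rfl (hP.res G A N hA)
      obtain ⟨hfQ, hcQ⟩ := ih _ hlt2 (G ⧸ N) (A.quotientToInvariants N) rfl (hP.quot G A N hA)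
      have hvan : ∀ i, 1 ≤ i → i < 2 → VanishOn A N i := by
        intro i h1 h2
        obtain rfl : i = 1 := by omega
        exact hN1
      obtain ⟨hfin, hcard⟩ := finite_card_le_of_exact
        (ConcreteCategory.hom (infl A N 2)).toAddMonoidHom
        (ConcreteCategory.hom (rest A N 2)).toAddMonoidHom
        (fun x hx => infl_rest_exact A N 2 (by norm_num) hvan x hx)
      refine ⟨hfin, hcard.trans ?_⟩
      calc Nat.card (groupCohomology (A.quotientToInvariants N) 2) *
            Nat.card (groupCohomology (Rep.res N.subtype A) 2)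
          ≤ Nat.card (G ⧸ N) * Nat.card N := Nat.mul_le_mul hcQ hcN
        _ = Nat.card G := (Subgroup.card_eq_card_quotient_mul_card_subgroup N).symm
    · classical
      let Q : ∀ p : ℕ, Sylow p G := fun p => Classical.arbitrary _
      have hih : ∀ p : (Nat.card G).primeFactors,
          Finite (groupCohomology (Rep.res ((Q p : Sylow p G) : Subgroup G).subtype A) 2) ∧
          Nat.card (groupCohomology (Rep.res ((Q p : Sylow p G) : Subgroup G).subtype A) 2) ≤
            Nat.card ((Q p : Sylow p G) : Subgroup G) := by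
        intro p
        have : Fact (p : ℕ).Prime := ⟨Nat.prime_of_mem_primeFactors p.2⟩
        exact ih _ (card_sylow_lt hpg (Q p)) ((Q p : Sylow p G) : Subgroup G)
          (Rep.res ((Q p : Sylow p G) : Subgroup G).subtype A) rfl (hP.res G A _ hA)
      have : ∀ p : (Nat.card G).primeFactors,
          Finite (groupCohomology (Rep.res ((Q p : Sylow p G) : Subgroup G).subtype A) 2) :=
        fun p => (hih p).1
      let Φ : groupCohomology A 2 → ∀ p : (Nat.card G).primeFactors,
          groupCohomology (Rep.res ((Q p : Sylow p G) : Subgroup G).subtype A) 2 :=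
        fun x p => rest A ((Q p : Sylow p G) : Subgroup G) 2 x
      have hΦ : Function.Injective Φ := by
        intro x y hxy
        rw [← sub_eq_zero]
        refine eq_zero_of_rest_sylow A 2 (by norm_num) (x - y) fun p hp => ⟨Q p, ?_⟩
        by_cases hpG : p ∈ (Nat.card G).primeFactors
        · have := congrFun hxy ⟨p, hpG⟩
          simp only [Φ] at this
          rw [map_sub, this, sub_self]
        · have : Fact p.Prime := ⟨hp⟩
          have hc : Nat.card ((Q p : Sylow p G) : Subgroup G) = 1 := by
            rw [Sylow.card_eq_multiplicity, Nat.factorization_eq_zero_of_not_dvd, pow_zero]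
            intro hdvd
            exact hpG (Nat.mem_primeFactors.mpr ⟨hp, hdvd, Nat.card_pos.ne'⟩)
          have : Subsingleton ((Q p : Sylow p G) : Subgroup G) :=
            (Nat.card_eq_one_iff_unique.mp hc).1
          exact (ModuleCat.subsingleton_of_isZero
            (isZero_groupCohomology_succ_of_subsingleton _ 1)).elim _ _
      refine ⟨Finite.of_injective Φ hΦ, ?_⟩
      calc Nat.card (groupCohomology A 2)
          ≤ Nat.card (∀ p : (Nat.card G).primeFactors,
              groupCohomology (Rep.res ((Q p : Sylow p G) : Subgroup G).subtype A) 2) :=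
            Nat.card_le_card_of_injective Φ hΦ
        _ = ∏ p : (Nat.card G).primeFactors,
              Nat.card (groupCohomology (Rep.res ((Q p : Sylow p G) : Subgroup G).subtype A) 2) :=
            Nat.card_pi
        _ ≤ ∏ p : (Nat.card G).primeFactors, Nat.card ((Q p : Sylow p G) : Subgroup G) :=
            Finset.prod_le_prod (fun _ _ => Nat.zero_le _) (fun p _ => (hih p).2)
        _ = ∏ p : (Nat.card G).primeFactors, (p : ℕ) ^ (Nat.card G).factorization p := by
            refine Finset.prod_congr rfl fun p _ => ?_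
            have : Fact (p : ℕ).Prime := ⟨Nat.prime_of_mem_primeFactors p.2⟩
            exact Sylow.card_eq_multiplicity (Q p)
        _ = Nat.card G := by
            rw [Finset.prod_coe_sort (Nat.card G).primeFactors
              (fun p => p ^ (Nat.card G).factorization p)]
            exact Nat.prod_factorization_pow_eq_self Nat.card_pos.ne'

end Fermat.Agent.S55.GrpCoh
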