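import Fermat.Agent.S55.GrpCoh.DeltaNat

/-!
# S55 / B1 — naturality of connecting homomorphisms across group homomorphisms

* `δ_rest`, `δ_infl`: the connecting homomorphism commutes with restriction to a subgroup and
  with inflation (special cases of `δ_map_naturality` of `DeltaNat`).
* `invSC`, `invSC_shortExact`: the sequence of `N`-invariants of a short exact sequence is short
  exact if `H¹(N, X₁) = 0`.
* `map_one_succ`, `infl_comp_rest`: the trivial homomorphism induces zero in positive degrees,
  hence `res ∘ inf = 0`.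
-/

set_option autoImplicit false

universe u

open CategoryTheory groupCohomology Rep

namespace Fermat.Agent.S55.GrpCoh


variable {k G H : Type u} [CommRing k] [Group G] [Group H]

/-- The connecting homomorphism commutes with restriction to a subgroup. -/
theorem δ_rest {X : ShortComplex (Rep.{u} k G)} (hX : X.ShortExact) (S : Subgroup G)
    (i j : ℕ) (hij : i + 1 = j) :
    δ hX i j hij ≫ rest X.X₁ S j =
      rest X.X₃ S i ≫ δ ((shortExact_res S.subtype).2 hX) i j hij :=
  δ_map_naturality S.subtype hX ((shortExact_res S.subtype).2 hX) (𝟙 _) (𝟙 _) (𝟙 _)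
    (by ext; rfl) (by ext; rfl) i j hij

/-- The short complex of `N`-invariants `X₁^N ⟶ X₂^N ⟶ X₃^N` of `G ⧸ N`-representations. -/
noncomputable abbrev invSC (X : ShortComplex (Rep.{u} k G)) (N : Subgroup G) [N.Normal] :
    ShortComplex (Rep.{u} k (G ⧸ N)) :=
  ShortComplex.mk (X₁ := X.X₁.quotientToInvariants N) (X₂ := X.X₂.quotientToInvariants N)
    (X₃ := X.X₃.quotientToInvariants N)
    ((quotientToInvariantsFunctor k N).map X.f) ((quotientToInvariantsFunctor k N).map X.g)
    (by
      have h := (quotientToInvariantsFunctor k N).map_comp X.f X.g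
      rw [X.zero] at h
      exact h.symm.trans (by ext x; rfl))

/-- The connecting homomorphism commutes with inflation. -/
theorem δ_infl {X : ShortComplex (Rep.{u} k G)} (hX : X.ShortExact) (N : Subgroup G) [N.Normal]
    (hXN : (invSC X N).ShortExact) (i j : ℕ) (hij : i + 1 = j) :
    δ hXN i j hij ≫ infl X.X₁ N j = infl X.X₃ N i ≫ δ hX i j hij :=
  δ_map_naturality (QuotientGroup.mk' N) hXN hX
    (Rep.ofHom <| X.X₁.ρ.quotientToInvariants_lift N)
    (Rep.ofHom <| X.X₂.ρ.quotientToInvariants_lift N)
    (Rep.ofHom <| X.X₃.ρ.quotientToInvariants_lift N)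
    (by ext; rfl) (by ext; rfl) i j hij

/-- If `H¹(N, X₁) = 0`, the sequence of `N`-invariants of a short exact sequence is short
exact. -/
theorem invSC_shortExact {X : ShortComplex (Rep.{u} k G)} (hX : X.ShortExact) (N : Subgroup G)
    [N.Normal] (h1 : VanishOn X.X₁ N 1) : (invSC X N).ShortExact := by
  have hf : Function.Injective X.f.hom := (Rep.mono_iff_injective X.f).1 hX.mono_f
  have hg : Function.Surjective X.g.hom := (Rep.epi_iff_surjective X.g).1 hX.epi_g
  have hex : LinearMap.range X.f.hom.toLinearMap = LinearMap.ker X.g.hom.toLinearMap :=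
    (hX.exact.map (forget₂ (Rep k G) (ModuleCat k))).moduleCat_range_eq_ker
  have hex' : ∀ y : X.X₂.V, X.g.hom y = 0 → ∃ a : X.X₁.V, X.f.hom a = y := by
    intro y hy
    have : y ∈ LinearMap.ker X.g.hom.toLinearMap := hy
    rw [← hex] at this
    exact this
  refine ShortComplex.ShortExact.mk' ?_ ?_ ?_
  · refine (ShortComplex.exact_map_iff_of_faithful (invSC X N)
      (forget₂ (Rep k (G ⧸ N)) (ModuleCat k))).1 ?_
    rw [ShortComplex.moduleCat_exact_iff]
    intro x hx
    have hx' : X.g.hom (Subtype.val (p := fun a => a ∈ Representation.invariants (X.X₂.ρ.comp N.subtype)) x) = 0 :=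
      congrArg (Subtype.val (p := fun a => a ∈ Representation.invariants (X.X₃.ρ.comp N.subtype))) hx
    obtain ⟨a, ha⟩ := hex' _ hx'
    have haN : a ∈ Representation.invariants (X.X₁.ρ.comp N.subtype) := by
      intro s
      apply hf
      have h2 := (Subtype.prop (p := fun a => a ∈ Representation.invariants (X.X₂.ρ.comp N.subtype)) x) s
      have h3 := Rep.hom_comm_apply X.f (s : G) a
      rw [ha] at h3
      exact h3.trans (h2.trans ha.symm)
    refine ⟨(⟨a, haN⟩ : Representation.invariants (X.X₁.ρ.comp N.subtype)), ?_⟩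
    exact Subtype.ext ha
  · refine (Rep.mono_iff_injective _).2 ?_
    intro x y h
    exact Subtype.ext (hf (congrArg Subtype.val h))
  · refine (Rep.epi_iff_surjective _).2 ?_
    intro z
    have hz : ∀ s : N, X.X₃.ρ (s : G)
        (Subtype.val (p := fun a => a ∈ Representation.invariants (X.X₃.ρ.comp N.subtype)) z) =
        (Subtype.val (p := fun a => a ∈ Representation.invariants (X.X₃.ρ.comp N.subtype)) z) :=
      fun s => (Subtype.prop (p := fun a => a ∈ Representation.invariants (X.X₃.ρ.comp N.subtype)) z) s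
    obtain ⟨y, hy⟩ := hg
      (Subtype.val (p := fun a => a ∈ Representation.invariants (X.X₃.ρ.comp N.subtype)) z)
    -- the cocycle
    have hc : ∀ s : N, ∃ a : X.X₁.V, X.f.hom a = X.X₂.ρ (s : G) y - y := by
      intro s
      apply hex'
      have h3 := Rep.hom_comm_apply X.g (s : G) y
      rw [map_sub, h3, hy, hz s, sub_self]
    choose c hc using hc
    have hcoc : c ∈ cocycles₁ (res N.subtype X.X₁) := by
      rw [mem_cocycles₁_iff]
      intro s t
      apply hf
      have h3 := Rep.hom_comm_apply X.f (s : G) (c t)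
      change X.f.hom (c (s * t)) = X.f.hom (X.X₁.ρ (s : G) (c t) + c s)
      rw [map_add, h3, hc, hc, hc, map_sub]
      change X.X₂.ρ ((s : G) * (t : G)) y - y = _
      rw [map_mul]
      simp
    have hzero : H1π (res N.subtype X.X₁) ⟨c, hcoc⟩ = 0 := by
      have := h1.eq_of_tgt (H1π (res N.subtype X.X₁)) 0
      rw [this]
      rfl
    obtain ⟨a, ha⟩ := (H1π_eq_zero_iff _).1 hzero
    have ha' : ∀ s : N, X.X₁.ρ (s : G) a - a = c s := fun s => congrFun ha s
    have hyN : y - X.f.hom a ∈ Representation.invariants (X.X₂.ρ.comp N.subtype) := by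
      intro s
      have h3 := Rep.hom_comm_apply X.f (s : G) a
      change X.X₂.ρ (s : G) (y - X.f.hom a) = y - X.f.hom a
      have h4 := hc s
      rw [← ha' s, map_sub, h3] at h4
      rw [map_sub]
      calc X.X₂.ρ (s : G) y - X.X₂.ρ (s : G) (X.f.hom a)
          = (X.X₂.ρ (s : G) y - y) - (X.X₂.ρ (s : G) (X.f.hom a) - X.f.hom a)
              + (y - X.f.hom a) := by abel
        _ = y - X.f.hom a := by rw [h4, sub_self, zero_add]
    refine ⟨(⟨y - X.f.hom a, hyN⟩ : Representation.invariants (X.X₂.ρ.comp N.subtype)), ?_⟩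
    apply Subtype.ext
    change X.g.hom (y - X.f.hom a) = _
    have h5 : X.g.hom (X.f.hom a) = 0 := by
      have : X.f.hom a ∈ LinearMap.ker X.g.hom.toLinearMap := by
        rw [← hex]; exact ⟨a, rfl⟩
      exact this
    rw [map_sub, h5, sub_zero, hy]

/-- The map induced on positive-degree cohomology by the trivial group homomorphism is zero. -/
theorem map_one_succ {A : Rep.{u} k H} {B : Rep.{u} k G} (φ : res (1 : G →* H) A ⟶ B) (n : ℕ) :
    groupCohomology.map (1 : G →* H) φ (n + 1) = 0 := by
  let T : Subgroup H := ⊥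
  let f₂ : G →* T := 1
  have hcomp : T.subtype.comp f₂ = (1 : G →* H) := by
    ext g; rfl
  have hz : Limits.IsZero (groupCohomology (res T.subtype A) (n + 1)) :=
    isZero_groupCohomology_succ_of_subsingleton _ n
  have h := groupCohomology.map_comp T.subtype f₂ (𝟙 (res T.subtype A))
    (show res f₂ (res T.subtype A) ⟶ B from φ) (n + 1)
  have h2 : groupCohomology.map (1 : G →* H) φ (n + 1) =
      groupCohomology.map (T.subtype.comp f₂)
        ((resFunctor f₂).map (𝟙 (res T.subtype A)) ≫
          (show res f₂ (res T.subtype A) ⟶ B from φ)) (n + 1) :=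
    groupCohomology.map_congr hcomp.symm (by rfl) (n + 1)
  rw [h2, h, hz.eq_of_tgt (groupCohomology.map T.subtype (𝟙 (res T.subtype A)) (n + 1)) 0,
    Limits.zero_comp]

theorem infl_comp_rest (A : Rep.{u} k G) (N : Subgroup G) [N.Normal] (m : ℕ) :
    infl A N (m + 1) ≫ rest A N (m + 1) = 0 := by
  rw [← groupCohomology.map_comp, groupCohomology.congr (QuotientGroup.mk'_comp_subtype N)
    (fun f φ => groupCohomology.map f φ (m + 1)), map_one_succ]

end Fermat.Agent.S55.GrpCoh
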