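import Fermat.Agent.S55.GrpCoh.Coind
import Fermat.Agent.S55.GrpCoh.InfResNat

/-!
# S55 / B1 — inflation–restriction in higher degrees

For `N ◁ G` and `n ≥ 1`: if `Hⁱ(N, A) = 0` for `1 ≤ i < n`, then
`0 ⟶ Hⁿ(G ⧸ N, A^N) ⟶ Hⁿ(G, A) ⟶ Hⁿ(N, A)` is exact (Serre, Local Fields, VII §6 Prop. 5).
Proof: dimension shifting along `0 ⟶ A ⟶ Fun(G, A) ⟶ A' ⟶ 0`, starting from Mathlib's
`groupCohomology.H1InfRes_exact`.
-/

set_option autoImplicit false

universe u

open CategoryTheory groupCohomology Rep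

namespace Fermat.Agent.S55.GrpCoh

variable {k G : Type u} [CommRing k] [Group G]

/-- Auxiliary form of inflation–restriction, by induction on the degree. -/
theorem infl_rest_aux (N : Subgroup G) [N.Normal] (n : ℕ) :
    ∀ (A : Rep.{u} k G), (∀ i, 1 ≤ i → i < n + 1 → VanishOn A N i) →
      Function.Injective (infl A N (n + 1)) ∧
      ∀ x : groupCohomology A (n + 1), rest A N (n + 1) x = 0 →
        ∃ y : groupCohomology (A.quotientToInvariants N) (n + 1), infl A N (n + 1) y = x := by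
  induction n with
  | zero =>
    intro A _
    refine ⟨?_, ?_⟩
    · exact (ModuleCat.mono_iff_injective (H1InfRes A N).f).1 inferInstance
    · intro x hx
      exact (ShortComplex.moduleCat_exact_iff _).1 (H1InfRes_exact A N) x hx
  | succ n ih =>
    intro A hvan
    have hX := shiftSC_shortExact A
    have h1 : VanishOn A N 1 := hvan 1 le_rfl (by omega)
    have hXN := invSC_shortExact hX N h1
    have hXres := (shortExact_res N.subtype).2 hX
    -- vanishing for the shifted module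
    have hvan' : ∀ i, 1 ≤ i → i < n + 1 → VanishOn (shift A) N i := by
      intro i hi hin
      obtain ⟨i, rfl⟩ : ∃ i', i = i' + 1 := ⟨i - 1, by omega⟩
      have hex := mapShortComplex₃_exact hXres (i := i + 1) (j := i + 2) rfl
      exact hex.isZero_of_both_isZero (vanishOn_coind₁ A N i) (hvan (i + 2) (by omega) (by omega))
    obtain ⟨hinj', hex'⟩ := ih (shift A) hvan'
    have hδG : IsIso (δ hX (n + 1) (n + 2) rfl) := isIso_δ_shift A n
    have hδN : Mono (δ hXres (n + 1) (n + 2) rfl) :=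
      mono_δ_of_isZero hXres (n + 1) (vanishOn_coind₁ A N n)
    have hδQ : Epi (δ hXN (n + 1) (n + 2) rfl) :=
      epi_δ_of_isZero hXN (n + 1) (isZero_coind₁_quotientToInvariants A N (n + 1))
    have sq_inf := δ_infl hX N hXN (n + 1) (n + 2) rfl
    have sq_res := δ_rest hX N (n + 1) (n + 2) rfl
    have hδG_inj : Function.Injective (δ hX (n + 1) (n + 2) rfl) :=
      (ModuleCat.mono_iff_injective _).1 inferInstance
    have hδG_surj : Function.Surjective (δ hX (n + 1) (n + 2) rfl) :=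
      (ModuleCat.epi_iff_surjective _).1 inferInstance
    have hδN_inj : Function.Injective (δ hXres (n + 1) (n + 2) rfl) :=
      (ModuleCat.mono_iff_injective _).1 hδN
    have hδQ_surj : Function.Surjective (δ hXN (n + 1) (n + 2) rfl) :=
      (ModuleCat.epi_iff_surjective _).1 hδQ
    have sq_inf' : ∀ x', infl A N (n + 2) (δ hXN (n + 1) (n + 2) rfl x') =
        δ hX (n + 1) (n + 2) rfl (infl (shift A) N (n + 1) x') := fun x' =>
      ConcreteCategory.congr_hom sq_inf x'
    have sq_res' : ∀ y', rest A N (n + 2) (δ hX (n + 1) (n + 2) rfl y') =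
        δ hXres (n + 1) (n + 2) rfl (rest (shift A) N (n + 1) y') := fun y' =>
      ConcreteCategory.congr_hom sq_res y'
    refine ⟨?_, ?_⟩
    · rw [injective_iff_map_eq_zero]
      intro x hx
      obtain ⟨x', rfl⟩ := hδQ_surj x
      rw [sq_inf'] at hx
      have h0 : infl (shift A) N (n + 1) x' = 0 := hδG_inj (by rw [hx, map_zero])
      have : x' = 0 := hinj' (by rw [h0, map_zero])
      rw [this, map_zero]
    · intro y hy
      obtain ⟨y', rfl⟩ := hδG_surj y
      rw [sq_res'] at hy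
      have h0 : rest (shift A) N (n + 1) y' = 0 := hδN_inj (hy.trans (map_zero _).symm)
      obtain ⟨x', rfl⟩ := hex' y' h0
      exact ⟨δ hXN (n + 1) (n + 2) rfl x', sq_inf' x'⟩

/-- Inflation is injective in degree `n ≥ 1` if `Hⁱ(N, A) = 0` for `1 ≤ i < n`. -/
theorem infl_injective (A : Rep.{u} k G) (N : Subgroup G) [N.Normal] (n : ℕ) (hn : 1 ≤ n)
    (hvan : ∀ i, 1 ≤ i → i < n → VanishOn A N i) :
    Function.Injective (infl A N n) := by
  obtain ⟨m, rfl⟩ : ∃ m, n = m + 1 := ⟨n - 1, by omega⟩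
  exact (infl_rest_aux N m A hvan).1

/-- Exactness in the middle of `Hⁿ(G ⧸ N, A^N) ⟶ Hⁿ(G, A) ⟶ Hⁿ(N, A)` for `n ≥ 1` if
`Hⁱ(N, A) = 0` for `1 ≤ i < n`. -/
theorem infl_rest_exact (A : Rep.{u} k G) (N : Subgroup G) [N.Normal] (n : ℕ) (hn : 1 ≤ n)
    (hvan : ∀ i, 1 ≤ i → i < n → VanishOn A N i)
    (x : groupCohomology A n) (hx : rest A N n x = 0) :
    ∃ y : groupCohomology (A.quotientToInvariants N) n, infl A N n y = x := by
  obtain ⟨m, rfl⟩ : ∃ m, n = m + 1 := ⟨n - 1, by omega⟩
  exact (infl_rest_aux N m A hvan).2 x hx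

/-- `res ∘ inf = 0` in every positive degree. -/
theorem rest_infl (A : Rep.{u} k G) (N : Subgroup G) [N.Normal] (n : ℕ) (hn : 1 ≤ n)
    (y : groupCohomology (A.quotientToInvariants N) n) :
    rest A N n (infl A N n y) = 0 := by
  obtain ⟨m, rfl⟩ : ∃ m, n = m + 1 := ⟨n - 1, by omega⟩
  exact ConcreteCategory.congr_hom (infl_comp_rest A N m) y

end Fermat.Agent.S55.GrpCoh
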