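import Fermat.Agent.S55.GrpCoh.DeltaNat

/-!
# Exactness of invariants when `H¹` vanishes

For a short exact sequence `0 ⟶ X₁ ⟶ X₂ ⟶ X₃ ⟶ 0` of `G`-representations and a normal subgroup
`N` with `H¹(N, X₁) = 0`, the sequence of `N`-invariants
`0 ⟶ X₁^N ⟶ X₂^N ⟶ X₃^N ⟶ 0` of `G ⧸ N`-representations is short exact.
This is the hypothesis `hXN` of `infl_δ`.
-/

set_option autoImplicit false

universe u

open CategoryTheory

namespace Fermat.Agent.S55.GrpCoh

variable {k G : Type u} [CommRing k] [Group G]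

/-- Every 1-cocycle is a coboundary when `H¹` vanishes. -/
theorem mem_coboundaries₁_of_isZero (A : Rep.{u} k G)
    (h : Limits.IsZero (groupCohomology A 1)) (c : groupCohomology.cocycles₁ A) :
    (c : G → A) ∈ groupCohomology.coboundaries₁ A := by
  have := ModuleCat.subsingleton_of_isZero h
  exact (groupCohomology.H1π_eq_zero_iff c).1 (Subsingleton.elim _ _)

/-- Elementwise form: if `H¹(G, A) = 0`, every function `c : G → A` satisfying the cocycle
identity is of the form `g ↦ g • a - a`. -/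
theorem exists_eq_sub_of_isZero_H1 (A : Rep.{u} k G)
    (h : Limits.IsZero (groupCohomology A 1)) (c : G → A)
    (hc : ∀ g h : G, c (g * h) = A.ρ g (c h) + c g) :
    ∃ a : A, ∀ g : G, c g = A.ρ g a - a := by
  have hc' : c ∈ groupCohomology.cocycles₁ A := (groupCohomology.mem_cocycles₁_iff c).2 hc
  obtain ⟨a, ha⟩ := mem_coboundaries₁_of_isZero A h ⟨c, hc'⟩
  refine ⟨a, fun g => ?_⟩
  have := congrFun ha g
  simpa using this.symm

theorem shortExact_quotientToInvariants {X : ShortComplex (Rep.{u} k G)} (hX : X.ShortExact)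
    (N : Subgroup G) [N.Normal] (h1 : VanishOn X.X₁ N 1) :
    (X.map (Rep.quotientToInvariantsFunctor k N)).ShortExact := by
  have hf : Function.Injective X.f.hom := (Rep.mono_iff_injective X.f).1 hX.mono_f
  have hg : Function.Surjective X.g.hom := (Rep.epi_iff_surjective X.g).1 hX.epi_g
  have hrk : LinearMap.range X.f.hom.toLinearMap = LinearMap.ker X.g.hom.toLinearMap :=
    (hX.exact.map (forget₂ (Rep k G) (ModuleCat k))).moduleCat_range_eq_ker
  have hex : ∀ b : X.X₂, X.g.hom b = 0 → ∃ a : X.X₁, X.f.hom a = b := by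
    intro b hb
    have : b ∈ LinearMap.ker X.g.hom.toLinearMap := hb
    rw [← hrk] at this
    exact this
  refine { exact := ?_, mono_f := ?_, epi_g := ?_ }
  · rw [← ShortComplex.exact_map_iff_of_faithful _ (forget₂ (Rep k (G ⧸ N)) (ModuleCat k))]
    rw [ShortComplex.moduleCat_exact_iff]
    intro b hb0
    obtain ⟨b, hb⟩ := b
    have hgb : X.g.hom b = 0 := congrArg Subtype.val hb0
    obtain ⟨a, rfl⟩ := hex b hgb
    refine ⟨⟨a, ?_⟩, ?_⟩
    · intro n
      apply hf
      have h2 := hb n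
      have h3 : X.f.hom (X.X₁.ρ (n : G) a) = X.X₂.ρ (n : G) (X.f.hom a) :=
        Rep.hom_comm_apply X.f (n : G) a
      exact h3.trans h2
    · exact Subtype.ext rfl
  · rw [Rep.mono_iff_injective]
    intro a a' haa
    obtain ⟨a, ha⟩ := a
    obtain ⟨a', ha'⟩ := a'
    have : X.f.hom a = X.f.hom a' := congrArg Subtype.val haa
    exact Subtype.ext (hf this)
  · rw [Rep.epi_iff_surjective]
    intro c
    obtain ⟨c, hc⟩ := c
    obtain ⟨b, rfl⟩ := hg c
    have hkey : ∀ n : N, ∃ a : X.X₁, X.f.hom a = X.X₂.ρ (n : G) b - b := by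
      intro n
      apply hex
      have h2 : X.X₃.ρ (n : G) (X.g.hom b) = X.g.hom b := hc n
      have h3 : X.g.hom (X.X₂.ρ (n : G) b) = X.X₃.ρ (n : G) (X.g.hom b) :=
        Rep.hom_comm_apply X.g (n : G) b
      rw [map_sub, h3, h2, sub_self]
    choose a ha using hkey
    have hcoc : ∀ m n : N, a (m * n) =
        (Rep.res N.subtype X.X₁).ρ m (a n) + a m := by
      intro m n
      apply hf
      have h3 : X.f.hom (X.X₁.ρ (m : G) (a n)) = X.X₂.ρ (m : G) (X.f.hom (a n)) :=
        Rep.hom_comm_apply X.f (m : G) (a n)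
      have h4 : X.f.hom ((Rep.res N.subtype X.X₁).ρ m (a n) + a m) =
          X.X₂.ρ (m : G) (X.f.hom (a n)) + X.f.hom (a m) := by
        rw [map_add]
        exact congrArg (· + X.f.hom (a m)) h3
      rw [h4, ha, ha, ha]
      have h5 : X.X₂.ρ ((m * n : N) : G) b = X.X₂.ρ (m : G) (X.X₂.ρ (n : G) b) := by
        rw [Subgroup.coe_mul, map_mul]
        rfl
      rw [h5, map_sub]
      abel
    obtain ⟨a₀, ha₀⟩ := exists_eq_sub_of_isZero_H1 (Rep.res N.subtype X.X₁) h1 a hcoc
    refine ⟨⟨b - X.f.hom a₀, ?_⟩, ?_⟩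
    · intro n
      have h3 : X.f.hom (X.X₁.ρ (n : G) a₀) = X.X₂.ρ (n : G) (X.f.hom a₀) :=
        Rep.hom_comm_apply X.f (n : G) a₀
      have h6 : a n = X.X₁.ρ (n : G) a₀ - a₀ := ha₀ n
      have h7 := ha n
      rw [h6, map_sub, h3] at h7
      show X.X₂.ρ (n : G) (b - X.f.hom a₀) = b - X.f.hom a₀
      rw [map_sub]
      have h8 : X.X₂.ρ (n : G) (X.f.hom a₀) = X.X₂.ρ (n : G) b - b + X.f.hom a₀ := by
        rw [← h7]; abel
      rw [h8]; abel
    · apply Subtype.ext
      show X.g.hom (b - X.f.hom a₀) = X.g.hom b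
      have h9 : X.g.hom (X.f.hom a₀) = 0 := by
        have : X.f.hom a₀ ∈ LinearMap.ker X.g.hom.toLinearMap := by
          rw [← hrk]; exact ⟨a₀, rfl⟩
        exact this
      rw [map_sub, h9, sub_zero]

end Fermat.Agent.S55.GrpCoh
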