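import Fermat.Agent.S55.GrpCoh.HassePrinciple

/-!
# S55 / B1 — Hasse principle for the finite layers of an ambient module

Fix an ambient group `Γ` with a module `𝔸 : Rep k Γ` (e.g. `Γ = Gal(ℚ̄/ℚ)`, `𝔸 = ℚ̄ˣ`), a family
`𝒱` of "open" subgroups of `Γ`, and a family `𝒟` of *local data* `(D, s : D →* Γ, B, θ : 𝔸 → B)`
(e.g. `D = Gal(ℚ̄_q/ℚ_q)`, `B = ℚ̄ˣ` or `ℚ̄_qˣ`).

A pair `(G, A)` is a *layer* of `(Γ, 𝔸)` if it is presented (`LayerPres`) by a group `U` with an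
injective `r : U →* Γ`, a surjective `π : U →* G` and an embedding `j : A → 𝔸`, equivariant along
`(π, r)`, whose image is the module of `ker π`-invariants (so `G ≅ U₀/V₀`, `A ≅ 𝔸^{V₀}` with
`V₀ ⊴ U₀ ≤ Γ`).  No quotient groups or categorical isomorphisms are involved, so the class of
layers is visibly stable under subgroups (`LayerPres.res`) and quotients (`LayerPres.quot`).

A class `x ∈ H²(G, A)` is *locally trivial* if for every local datum of `𝒟` some cocycle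
representing `x`, inflated to the fibre product `U ×_Γ D` and pushed to `B`, is the coboundary of a
`𝒱`-level-constant cochain.

Main results:
* `isGaloisLike_isLayer`, `isLocalTriv_layer`: the interface of `HassePrinciple.lean`;
* `eq_zero_of_layer_locTriv`: if Hilbert 90 and the Hasse norm theorem hold for layers of order
  `p`, every locally trivial `p`-primary class of every finite layer vanishes.
-/

set_option autoImplicit false

universe u

open CategoryTheory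

namespace Fermat.Agent.S55.GrpCoh

variable {k Γ : Type u} [CommRing k] [Group Γ]

/-- A presentation of `(G, A)` as a layer `(U₀/V₀, 𝔸^{V₀})` of the ambient `(Γ, 𝔸)`. -/
structure LayerPres (𝔸 : Rep.{u} k Γ) (G : Type u) [Group G] (A : Rep.{u} k G) where
  /-- the group `U` (isomorphic to its image `U₀ ≤ Γ`) -/
  U : Type u
  [grp : Group U]
  /-- the embedding of `U` in the ambient group -/
  r : U →* Γ
  /-- the projection onto `G` -/
  π : U →* G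
  /-- the embedding of `A` in the ambient module -/
  j : A.V →ₗ[k] 𝔸.V
  r_inj : Function.Injective r
  π_surj : Function.Surjective π
  j_inj : Function.Injective j
  mem_range_j : ∀ a : 𝔸.V, a ∈ LinearMap.range j ↔ ∀ n : U, π n = 1 → 𝔸.ρ (r n) a = a
  j_equiv : ∀ (u : U) (a : A.V), j (A.ρ (π u) a) = 𝔸.ρ (r u) (j a)

attribute [instance] LayerPres.grp

namespace LayerPres

variable {𝔸 : Rep.{u} k Γ} {G : Type u} [Group G] {A : Rep.{u} k G}

/-- The kernel of the presentation is open with respect to the family `𝒱`. -/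
def IsOpen (P : LayerPres 𝔸 G A) (𝒱 : Set (Subgroup Γ)) : Prop :=
  ∃ V ∈ 𝒱, ∀ v ∈ V, ∃ n : P.U, P.π n = 1 ∧ P.r n = v

/-- Restriction of a presentation to a subgroup `H ≤ G`. -/
noncomputable def res (P : LayerPres 𝔸 G A) (H : Subgroup G) : LayerPres 𝔸 H (Rep.res H.subtype A) where
  U := ↥(H.comap P.π)
  r := P.r.comp (H.comap P.π).subtype
  π := P.π.subgroupComap H
  j := P.j
  r_inj := P.r_inj.comp Subtype.val_injective
  π_surj := P.π.subgroupComap_surjective_of_surjective H P.π_surj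
  j_inj := P.j_inj
  mem_range_j a := by
    rw [P.mem_range_j]
    constructor
    · intro h n hn
      exact h n.1 (congrArg Subtype.val hn)
    · intro h n hn
      have hmem : n ∈ H.comap P.π := by
        rw [Subgroup.mem_comap, hn]
        exact H.one_mem
      exact h ⟨n, hmem⟩ (Subtype.ext hn)
  j_equiv u a := P.j_equiv u.1 a

/-- The quotient of a presentation by a normal subgroup `N ⊴ G`. -/
noncomputable def quot (P : LayerPres 𝔸 G A) (N : Subgroup G) [N.Normal] :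
    LayerPres 𝔸 (G ⧸ N) (A.quotientToInvariants N) where
  U := P.U
  r := P.r
  π := (QuotientGroup.mk' N).comp P.π
  j := P.j ∘ₗ (Representation.invariants (A.ρ.comp N.subtype)).subtype
  r_inj := P.r_inj
  π_surj := (QuotientGroup.mk'_surjective N).comp P.π_surj
  j_inj := P.j_inj.comp Subtype.val_injective
  mem_range_j a := by
    constructor
    · rintro ⟨⟨b, hb⟩, rfl⟩ n hn
      have hnN : P.π n ∈ N := by
        rw [MonoidHom.comp_apply, QuotientGroup.mk'_apply, QuotientGroup.eq_one_iff] at hn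
        exact hn
      have := hb ⟨P.π n, hnN⟩
      simp only [LinearMap.comp_apply, Submodule.subtype_apply]
      rw [← P.j_equiv]
      exact congrArg P.j this
    · intro h
      have h1 : a ∈ LinearMap.range P.j := by
        rw [P.mem_range_j]
        intro n hn
        exact h n (by rw [MonoidHom.comp_apply, hn, map_one])
      obtain ⟨b, rfl⟩ := h1
      refine ⟨⟨b, ?_⟩, rfl⟩
      rintro ⟨g, hg⟩
      obtain ⟨n, rfl⟩ := P.π_surj g
      apply P.j_inj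
      change P.j (A.ρ (P.π n) b) = P.j b
      rw [P.j_equiv]
      exact h n (by
        rw [MonoidHom.comp_apply, QuotientGroup.mk'_apply, QuotientGroup.eq_one_iff]
        exact hg)
  j_equiv u a := by
    simp only [LinearMap.comp_apply, Submodule.subtype_apply]
    rw [← P.j_equiv]
    rfl

theorem IsOpen.res {P : LayerPres 𝔸 G A} {𝒱 : Set (Subgroup Γ)} (h : P.IsOpen 𝒱)
    (H : Subgroup G) : (P.res H).IsOpen 𝒱 := by
  obtain ⟨V, hV, hv⟩ := h
  refine ⟨V, hV, fun v hvV => ?_⟩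
  obtain ⟨n, hn, rfl⟩ := hv v hvV
  have hmem : n ∈ H.comap P.π := by
    rw [Subgroup.mem_comap, hn]
    exact H.one_mem
  exact ⟨⟨n, hmem⟩, Subtype.ext hn, rfl⟩

theorem IsOpen.quot {P : LayerPres 𝔸 G A} {𝒱 : Set (Subgroup Γ)} (h : P.IsOpen 𝒱)
    (N : Subgroup G) [N.Normal] : (P.quot N).IsOpen 𝒱 := by
  obtain ⟨V, hV, hv⟩ := h
  refine ⟨V, hV, fun v hvV => ?_⟩
  obtain ⟨n, hn, rfl⟩ := hv v hvV
  exact ⟨n, by change (QuotientGroup.mk' N) (P.π n) = 1; rw [hn, map_one], rfl⟩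

end LayerPres

section inflCocycle

variable {G : Type u} [Group G] (A : Rep.{u} k G) (N : Subgroup G) [N.Normal]

/-- The inflation morphism of coefficients `A^N ⟶ A` (with target literally `A`). -/
noncomputable abbrev inflCoeff :
    Rep.res (QuotientGroup.mk' N) (A.quotientToInvariants N) ⟶ A :=
  Rep.ofHom <| A.ρ.quotientToInvariants_lift N

/-- Inflation on classes of 2-cocycles. -/
theorem infl_H2π (cy : groupCohomology.cocycles₂ (A.quotientToInvariants N)) :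
    infl A N 2 (groupCohomology.H2π _ cy) = groupCohomology.H2π A
      (groupCohomology.mapCocycles₂ (QuotientGroup.mk' N) (inflCoeff A N) cy) :=
  groupCohomology.H2π_comp_map_apply (A := A.quotientToInvariants N) (B := A)
    (QuotientGroup.mk' N) (inflCoeff A N) cy

/-- The inflated 2-cocycle, pointwise. -/
theorem inflCocycle_apply (cy : groupCohomology.cocycles₂ (A.quotientToInvariants N))
    (g₁ g₂ : G) :
    (groupCohomology.mapCocycles₂ (QuotientGroup.mk' N) (inflCoeff A N) cy : G × G → A.V)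
        (g₁, g₂) =
      ((cy ((g₁ : G ⧸ N), (g₂ : G ⧸ N)) :
        Representation.invariants (A.ρ.comp N.subtype)) : A.V) :=
  rfl

/-- Two 2-cocycles with the same class differ by the coboundary of a 1-cochain. -/
theorem exists_cochain_of_H2π_eq (c c' : groupCohomology.cocycles₂ A)
    (h : groupCohomology.H2π A c = groupCohomology.H2π A c') :
    ∃ β : G → A.V, ∀ g₁ g₂ : G, c (g₁, g₂) - c' (g₁, g₂) =
      A.ρ g₁ (β g₂) - β (g₁ * g₂) + β g₁ := by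
  rw [groupCohomology.H2π_eq_iff] at h
  obtain ⟨β, hβ⟩ := h
  exact ⟨β, fun g₁ g₂ => (congrFun hβ (g₁, g₂)).symm⟩

end inflCocycle

/-- A local datum for the ambient `(Γ, 𝔸)`: a group `D` over `Γ` and a `D`-module `B` receiving
`𝔸` equivariantly (e.g. a decomposition group acting on the units of an algebraic closure of the
local field). -/
structure LocalDatum (𝔸 : Rep.{u} k Γ) where
  /-- the local group -/
  D : Type u
  [grp : Group D]
  /-- the map to the ambient group -/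
  s : D →* Γ
  /-- the local module -/
  B : Rep.{u} k D
  /-- the localisation map on coefficients -/
  θ : 𝔸.V →ₗ[k] B.V
  θ_equiv : ∀ (d : D) (a : 𝔸.V), θ (𝔸.ρ (s d) a) = B.ρ d (θ a)

attribute [instance] LocalDatum.grp

namespace LayerPres

variable {𝔸 : Rep.{u} k Γ} {G : Type u} [Group G] {A : Rep.{u} k G}

/-- The fibre product `U ×_Γ D` (the local group of the layer at the datum `𝔡`). -/
def fib (P : LayerPres 𝔸 G A) (𝔡 : LocalDatum 𝔸) : Subgroup (P.U × 𝔡.D) :=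
  (P.r.comp (MonoidHom.fst P.U 𝔡.D)).eqLocus (𝔡.s.comp (MonoidHom.snd P.U 𝔡.D))

theorem fib_spec (P : LayerPres 𝔸 G A) (𝔡 : LocalDatum 𝔸) (e : P.fib 𝔡) :
    P.r e.1.1 = 𝔡.s e.1.2 := e.2

/-- A local 1-cochain is level-constant: invariant under right translation by the elements lying
over some subgroup of the family `𝒱`. -/
def IsLevelConst (P : LayerPres 𝔸 G A) (𝒱 : Set (Subgroup Γ)) (𝔡 : LocalDatum 𝔸)
    (b : P.fib 𝔡 → 𝔡.B.V) : Prop :=
  ∃ V ∈ 𝒱, ∀ e e' : P.fib 𝔡, P.r e'.1.1 ∈ V → b (e * e') = b e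

/-- The 2-cochain `c` of `(G, A)`, inflated to the local group at `𝔡` and pushed to the local
module, is the coboundary of a level-constant 1-cochain. -/
def IsLocCobdry (P : LayerPres 𝔸 G A) (𝒱 : Set (Subgroup Γ)) (𝔡 : LocalDatum 𝔸)
    (c : G × G → A.V) : Prop :=
  ∃ b : P.fib 𝔡 → 𝔡.B.V, P.IsLevelConst 𝒱 𝔡 b ∧
    ∀ e₁ e₂ : P.fib 𝔡, 𝔡.θ (P.j (c (P.π e₁.1.1, P.π e₂.1.1))) =
      𝔡.B.ρ e₁.1.2 (b e₂) - b (e₁ * e₂) + b e₁

/-- The class `x` is trivial at the local datum `𝔡`. -/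
def LocTrivAt (P : LayerPres 𝔸 G A) (𝒱 : Set (Subgroup Γ)) (𝔡 : LocalDatum 𝔸)
    (x : groupCohomology A 2) : Prop :=
  ∃ c : groupCohomology.cocycles₂ A, groupCohomology.H2π A c = x ∧ P.IsLocCobdry 𝒱 𝔡 c

/-- Local triviality is inherited by restrictions to subgroups. -/
theorem LocTrivAt.res {P : LayerPres 𝔸 G A} {𝒱 : Set (Subgroup Γ)} {𝔡 : LocalDatum 𝔸}
    {x : groupCohomology A 2} (h : P.LocTrivAt 𝒱 𝔡 x) (H : Subgroup G) :
    (P.res H).LocTrivAt 𝒱 𝔡 (rest A H 2 x) := by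
  obtain ⟨c, rfl, b, ⟨V, hV, hb⟩, hcb⟩ := h
  refine ⟨groupCohomology.mapCocycles₂ H.subtype (𝟙 (Rep.res H.subtype A)) c, ?_, ?_⟩
  · exact (groupCohomology.H2π_comp_map_apply H.subtype (𝟙 (Rep.res H.subtype A)) c).symm
  · let ι : (P.res H).fib 𝔡 → P.fib 𝔡 := fun e => ⟨(e.1.1.1, e.1.2), e.2⟩
    refine ⟨fun e => b (ι e), ⟨V, hV, fun e e' he' => hb (ι e) (ι e') he'⟩, fun e₁ e₂ => ?_⟩
    exact hcb (ι e₁) (ι e₂)

/-- Local triviality descends along inflation (no injectivity statement is needed: the local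
group and the inflated cochains do not change). -/
theorem LocTrivAt.quot {P : LayerPres 𝔸 G A} {𝒱 : Set (Subgroup Γ)}
    (h𝒱 : ∀ V₁ ∈ 𝒱, ∀ V₂ ∈ 𝒱, ∃ V₃ ∈ 𝒱, V₃ ≤ V₁ ⊓ V₂) (hP : P.IsOpen 𝒱)
    {𝔡 : LocalDatum 𝔸} (N : Subgroup G) [N.Normal]
    {y : groupCohomology (A.quotientToInvariants N) 2}
    (h : P.LocTrivAt 𝒱 𝔡 (infl A N 2 y)) : (P.quot N).LocTrivAt 𝒱 𝔡 y := by
  induction y using groupCohomology.H2_induction_on with
  | h cy =>
    obtain ⟨c, hc, b, ⟨V₁, hV₁, hb⟩, hcb⟩ := h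
    obtain ⟨V₂, hV₂, hopen⟩ := hP
    obtain ⟨V₃, hV₃, hle⟩ := h𝒱 V₁ hV₁ V₂ hV₂
    refine ⟨cy, rfl, ?_⟩
    -- the inflated cocycle of `cy`
    obtain ⟨β, hβ'⟩ := exists_cochain_of_H2π_eq A c
      (groupCohomology.mapCocycles₂ (QuotientGroup.mk' N) (inflCoeff A N) cy)
      (hc.trans (infl_H2π A N cy))
    have hc₁v := inflCocycle_apply A N cy
    have hπ1 : ∀ e' : P.fib 𝔡, P.r e'.1.1 ∈ V₂ → P.π e'.1.1 = 1 := by
      intro e' he'
      obtain ⟨n, hn, hrn⟩ := hopen _ he'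
      rw [← P.r_inj hrn]
      exact hn
    let b' : P.fib 𝔡 → 𝔡.B.V := fun e => b e - 𝔡.θ (P.j (β (P.π e.1.1)))
    have hconst : ∀ e e' : P.fib 𝔡, P.r e'.1.1 ∈ V₃ → b' (e * e') = b' e := by
      intro e e' he'
      have h1 := hb e e' (hle he').1
      have h2 := hπ1 e' (hle he').2
      have h3 : P.π (e * e').1.1 = P.π e.1.1 := by
        change P.π (e.1.1 * e'.1.1) = _
        rw [map_mul, h2, mul_one]
      change b (e * e') - 𝔡.θ (P.j (β (P.π (e * e').1.1))) = _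
      rw [h1, h3]
    have main : ∀ e₁ e₂ : P.fib 𝔡,
        𝔡.θ (P.j ((cy (((P.π e₁.1.1 : G) : G ⧸ N), ((P.π e₂.1.1 : G) : G ⧸ N)) :
            Representation.invariants (A.ρ.comp N.subtype)) : A.V)) =
          𝔡.B.ρ e₁.1.2 (b' e₂) - b' (e₁ * e₂) + b' e₁ := by
      intro e₁ e₂
      have hfib : P.r e₁.1.1 = 𝔡.s e₁.1.2 := e₁.2
      have key := hcb e₁ e₂
      have hβe := hβ' (P.π e₁.1.1) (P.π e₂.1.1)
      have hmul : P.π (e₁ * e₂).1.1 = P.π e₁.1.1 * P.π e₂.1.1 := by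
        change P.π (e₁.1.1 * e₂.1.1) = _
        rw [map_mul]
      have hequiv : 𝔡.θ (P.j (A.ρ (P.π e₁.1.1) (β (P.π e₂.1.1)))) =
          𝔡.B.ρ e₁.1.2 (𝔡.θ (P.j (β (P.π e₂.1.1)))) := by
        rw [P.j_equiv, hfib, 𝔡.θ_equiv]
      have hsub : ((cy (((P.π e₁.1.1 : G) : G ⧸ N), ((P.π e₂.1.1 : G) : G ⧸ N)) :
            Representation.invariants (A.ρ.comp N.subtype)) : A.V) =
          c (P.π e₁.1.1, P.π e₂.1.1) -
          (A.ρ (P.π e₁.1.1) (β (P.π e₂.1.1)) - β (P.π e₁.1.1 * P.π e₂.1.1) +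
            β (P.π e₁.1.1)) := by
        rw [← hβe, hc₁v]; abel
      change _ = 𝔡.B.ρ e₁.1.2 (b e₂ - 𝔡.θ (P.j (β (P.π e₂.1.1)))) -
          (b (e₁ * e₂) - 𝔡.θ (P.j (β (P.π (e₁ * e₂).1.1)))) +
          (b e₁ - 𝔡.θ (P.j (β (P.π e₁.1.1))))
      rw [hsub, hmul]
      simp only [map_sub, map_add]
      rw [key, hequiv]
      abel
    exact ⟨b', ⟨V₃, hV₃, hconst⟩, main⟩

end LayerPres

/-- `(G, A)` is a layer of `(Γ, 𝔸)` with open kernel. -/
def IsLayer (𝔸 : Rep.{u} k Γ) (𝒱 : Set (Subgroup Γ)) (G : Type u) [Group G]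
    (A : Rep.{u} k G) : Prop :=
  ∃ P : LayerPres 𝔸 G A, P.IsOpen 𝒱

/-- The class of layers is stable under subgroups and quotients. -/
theorem isGaloisLike_isLayer (𝔸 : Rep.{u} k Γ) (𝒱 : Set (Subgroup Γ)) :
    IsGaloisLike (IsLayer 𝔸 𝒱) where
  res G _ A H := by
    rintro ⟨P, hP⟩
    exact ⟨P.res H, hP.res H⟩
  quot G _ A N _ := by
    rintro ⟨P, hP⟩
    exact ⟨P.quot N, hP.quot N⟩

/-- The class `x ∈ H²(G, A)` of a layer is locally trivial at all local data of the family `𝒟`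
(for one and the same presentation with open kernel). -/
def IsLocTrivLayer (𝔸 : Rep.{u} k Γ) (𝒱 : Set (Subgroup Γ)) (𝒟 : LocalDatum 𝔸 → Prop)
    (G : Type u) [Group G] (A : Rep.{u} k G) (x : groupCohomology A 2) : Prop :=
  ∃ P : LayerPres 𝔸 G A, P.IsOpen 𝒱 ∧ ∀ 𝔡 : LocalDatum 𝔸, 𝒟 𝔡 → P.LocTrivAt 𝒱 𝔡 x

theorem IsLocTrivLayer.isLayer {𝔸 : Rep.{u} k Γ} {𝒱 : Set (Subgroup Γ)}
    {𝒟 : LocalDatum 𝔸 → Prop} {G : Type u} [Group G] {A : Rep.{u} k G}
    {x : groupCohomology A 2} (h : IsLocTrivLayer 𝔸 𝒱 𝒟 G A x) : IsLayer 𝔸 𝒱 G A := by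
  obtain ⟨P, hP, -⟩ := h
  exact ⟨P, hP⟩

/-- Local triviality of classes of layers satisfies the interface of `HassePrinciple.lean`
(`𝒱` directed downwards). -/
theorem isLocalTriv_layer (𝔸 : Rep.{u} k Γ) (𝒱 : Set (Subgroup Γ))
    (h𝒱 : ∀ V₁ ∈ 𝒱, ∀ V₂ ∈ 𝒱, ∃ V₃ ∈ 𝒱, V₃ ≤ V₁ ⊓ V₂) (𝒟 : LocalDatum 𝔸 → Prop) :
    IsLocalTriv (IsLayer 𝔸 𝒱) (IsLocTrivLayer 𝔸 𝒱 𝒟) where
  res G _ _ A H x _ := by
    rintro ⟨P, hP, hx⟩
    exact ⟨P.res H, hP.res H, fun 𝔡 h𝔡 => (hx 𝔡 h𝔡).res H⟩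
  quot G _ _ A N _ y _ := by
    rintro ⟨P, hP, hx⟩
    exact ⟨P.quot N, hP.quot N, fun 𝔡 h𝔡 => (hx 𝔡 h𝔡).quot h𝒱 hP N⟩

/-- **Hasse principle for layers, `p`-primary form.** Suppose that for the layers `(G, A)` of
order `p` of the ambient `(Γ, 𝔸)` one has `H¹(G, A) = 0` (Hilbert 90) and every locally trivial
class of `H²(G, A)` vanishes (Hasse norm theorem in degree `p`). Then for every finite layer, every
locally trivial class of `H²(G, A)` killed by a power of `p` vanishes. -/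
theorem eq_zero_of_layer_locTriv (p : ℕ) [Fact p.Prime] (𝔸 : Rep.{u} k Γ)
    (𝒱 : Set (Subgroup Γ)) (h𝒱 : ∀ V₁ ∈ 𝒱, ∀ V₂ ∈ 𝒱, ∃ V₃ ∈ 𝒱, V₃ ≤ V₁ ⊓ V₂)
    (𝒟 : LocalDatum 𝔸 → Prop)
    (hH90 : ∀ (G : Type u) [Group G] [Finite G] (A : Rep.{u} k G), IsLayer 𝔸 𝒱 G A →
      Nat.card G = p → Limits.IsZero (groupCohomology A 1))
    (hHNT : ∀ (G : Type u) [Group G] [Finite G] (A : Rep.{u} k G), IsLayer 𝔸 𝒱 G A →
      Nat.card G = p → ∀ x : groupCohomology A 2, IsLocTrivLayer 𝔸 𝒱 𝒟 G A x → x = 0)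
    (G : Type u) [Group G] [Finite G] (A : Rep.{u} k G) (x : groupCohomology A 2) (m : ℕ)
    (hm : ((p : k) ^ m) • x = 0) (hx : IsLocTrivLayer 𝔸 𝒱 𝒟 G A x) : x = 0 :=
  eq_zero_of_locallyTrivial_of_pow_smul p (IsLayer 𝔸 𝒱) (isGaloisLike_isLayer 𝔸 𝒱)
    (IsLocTrivLayer 𝔸 𝒱 𝒟) (isLocalTriv_layer 𝔸 𝒱 h𝒱 𝒟) hH90 hHNT G A hx.isLayer x m hm hx

/-- **Hasse principle for layers, `p`-group form** (no transfer argument needed). -/
theorem eq_zero_of_layer_locTriv_of_isPGroup (p : ℕ) [Fact p.Prime] (𝔸 : Rep.{u} k Γ)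
    (𝒱 : Set (Subgroup Γ)) (h𝒱 : ∀ V₁ ∈ 𝒱, ∀ V₂ ∈ 𝒱, ∃ V₃ ∈ 𝒱, V₃ ≤ V₁ ⊓ V₂)
    (𝒟 : LocalDatum 𝔸 → Prop)
    (hH90 : ∀ (G : Type u) [Group G] [Finite G] (A : Rep.{u} k G), IsLayer 𝔸 𝒱 G A →
      Nat.card G = p → Limits.IsZero (groupCohomology A 1))
    (hHNT : ∀ (G : Type u) [Group G] [Finite G] (A : Rep.{u} k G), IsLayer 𝔸 𝒱 G A →
      Nat.card G = p → ∀ x : groupCohomology A 2, IsLocTrivLayer 𝔸 𝒱 𝒟 G A x → x = 0)
    (G : Type u) [Group G] [Finite G] (hG : IsPGroup p G) (A : Rep.{u} k G)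
    (x : groupCohomology A 2) (hx : IsLocTrivLayer 𝔸 𝒱 𝒟 G A x) : x = 0 :=
  eq_zero_of_locallyTrivial_of_isPGroup p (IsLayer 𝔸 𝒱) (isGaloisLike_isLayer 𝔸 𝒱)
    (IsLocTrivLayer 𝔸 𝒱 𝒟) (isLocalTriv_layer 𝔸 𝒱 h𝒱 𝒟) hH90 hHNT G hG A hx.isLayer x hx

/-- **Hasse principle for layers, general form** (Hilbert 90 and the Hasse norm theorem for
layers of every prime order). -/
theorem eq_zero_of_layer_locTriv_of_forall_prime (𝔸 : Rep.{u} k Γ)
    (𝒱 : Set (Subgroup Γ)) (h𝒱 : ∀ V₁ ∈ 𝒱, ∀ V₂ ∈ 𝒱, ∃ V₃ ∈ 𝒱, V₃ ≤ V₁ ⊓ V₂)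
    (𝒟 : LocalDatum 𝔸 → Prop)
    (hH90 : ∀ (G : Type u) [Group G] [Finite G] (A : Rep.{u} k G), IsLayer 𝔸 𝒱 G A →
      (Nat.card G).Prime → Limits.IsZero (groupCohomology A 1))
    (hHNT : ∀ (G : Type u) [Group G] [Finite G] (A : Rep.{u} k G), IsLayer 𝔸 𝒱 G A →
      (Nat.card G).Prime → ∀ x : groupCohomology A 2, IsLocTrivLayer 𝔸 𝒱 𝒟 G A x → x = 0)
    (G : Type u) [Group G] [Finite G] (A : Rep.{u} k G)
    (x : groupCohomology A 2) (hx : IsLocTrivLayer 𝔸 𝒱 𝒟 G A x) : x = 0 :=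
  eq_zero_of_locallyTrivial (IsLayer 𝔸 𝒱) (isGaloisLike_isLayer 𝔸 𝒱)
    (IsLocTrivLayer 𝔸 𝒱 𝒟) (isLocalTriv_layer 𝔸 𝒱 h𝒱 𝒟) hH90 hHNT G A hx.isLayer x hx

end Fermat.Agent.S55.GrpCoh
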