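import Fermat.Agent.S55.GrpCoh.Defs

/-!
# S55 / B1 — elementwise form of the long exact cohomology sequence

Mathlib's `groupCohomology.mapShortComplex₁/₂/₃_exact`, restated on elements.
-/

set_option autoImplicit false

universe u

open CategoryTheory groupCohomology

namespace Fermat.Agent.S55.GrpCoh

variable {k G : Type u} [CommRing k] [Group G] {X : ShortComplex (Rep.{u} k G)}
  (hX : X.ShortExact)

include hX in
/-- Exactness at `Hⁱ(X₂)`. -/
theorem les_exact₂ (i : ℕ) (x : groupCohomology X.X₂ i)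
    (hx : groupCohomology.map (MonoidHom.id G) X.g i x = 0) :
    ∃ c : groupCohomology X.X₁ i, groupCohomology.map (MonoidHom.id G) X.f i c = x :=
  (ShortComplex.moduleCat_exact_iff _).1 (mapShortComplex₂_exact hX i) x hx

/-- Exactness at `Hⁱ(X₃)`. -/
theorem les_exact₃ (i : ℕ) (w : groupCohomology X.X₃ i) (hw : δ hX i (i + 1) rfl w = 0) :
    ∃ e : groupCohomology X.X₂ i, groupCohomology.map (MonoidHom.id G) X.g i e = w :=
  (ShortComplex.moduleCat_exact_iff _).1 (mapShortComplex₃_exact hX (i := i) (j := i + 1) rfl) w hw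

/-- Exactness at `Hⁱ⁺¹(X₁)`. -/
theorem les_exact₁ (i : ℕ) (c : groupCohomology X.X₁ (i + 1))
    (hc : groupCohomology.map (MonoidHom.id G) X.f (i + 1) c = 0) :
    ∃ w : groupCohomology X.X₃ i, δ hX i (i + 1) rfl w = c :=
  (ShortComplex.moduleCat_exact_iff _).1 (mapShortComplex₁_exact hX (i := i) (j := i + 1) rfl) c hc

/-- `δ ∘ g_* = 0`. -/
theorem les_δ_map (i : ℕ) (e : groupCohomology X.X₂ i) :
    δ hX i (i + 1) rfl (groupCohomology.map (MonoidHom.id G) X.g i e) = 0 :=
  (mapShortComplex₃ hX (i := i) (j := i + 1) rfl).moduleCat_zero_apply e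

/-- `f_* ∘ δ = 0`. -/
theorem les_map_δ (i : ℕ) (w : groupCohomology X.X₃ i) :
    groupCohomology.map (MonoidHom.id G) X.f (i + 1) (δ hX i (i + 1) rfl w) = 0 :=
  (mapShortComplex₁ hX (i := i) (j := i + 1) rfl).moduleCat_zero_apply w

omit hX in
/-- `g_* ∘ f_* = 0`. -/
theorem les_map_map (X : ShortComplex (Rep.{u} k G)) (i : ℕ) (c : groupCohomology X.X₁ i) :
    groupCohomology.map (MonoidHom.id G) X.g i (groupCohomology.map (MonoidHom.id G) X.f i c) = 0 :=
  (mapShortComplex₂ X i).moduleCat_zero_apply c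

end Fermat.Agent.S55.GrpCoh
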