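import Fermat.Agent.S55.GrpCoh.Aug

/-!
# S55 / B1 — the connecting map of the splitting module

For the splitting module `0 ⟶ C ⟶ C(σ) ⟶ I_G ⟶ 0` of a 2-cocycle `σ`, restricted to a subgroup
`H ≤ G`, the connecting homomorphism `H¹(H, I_G) ⟶ H²(H, C)` sends the canonical generator
`augClass k G H` to the restriction of the class of `σ`.
-/

set_option autoImplicit false
set_option linter.unusedSectionVars false

universe u

open CategoryTheory groupCohomology

namespace Fermat.Agent.S55.GrpCoh

variable {k G : Type u} [CommRing k] [Group G] [Fintype G] (C : Rep.{u} k G)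
  (σ : groupCohomology.cocycles₂ C)

open Classical in
lemma splitPhi_augCochain (g h : G) :
    splitPhi C σ g (augCochain k G h) = σ (g, h) - σ (g, 1) := by
  rw [splitPhi_apply]
  have h1 : ∀ x : G, ((augCochain k G h : augSub k G) : G → k) x • σ (g, x⁻¹)
      = (if x = h⁻¹ then σ (g, h) else 0) - (if x = 1 then σ (g, 1) else 0) := by
    intro x
    rw [augCochain_coe]
    simp only [Pi.sub_apply, funRho_apply, delta₁_apply, sub_smul]
    congr 1
    · by_cases hx : x = h⁻¹
      · subst hx; simp
      · have : ¬ x * h = 1 := fun h' => hx (eq_inv_of_mul_eq_one_left h')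
        simp [hx, this]
    · by_cases hx : x = 1
      · subst hx; simp
      · simp [hx]
  rw [Finset.sum_congr rfl (fun x _ => h1 x), Finset.sum_sub_distrib]
  simp

variable (H : Subgroup G)

/-- The splitting sequence restricted to `H`. -/
noncomputable abbrev splitSCres : ShortComplex (Rep.{u} k H) :=
  (splitSC C σ).map (Rep.resFunctor H.subtype)

lemma splitSCres_shortExact : (splitSCres C σ H).ShortExact :=
  (Rep.shortExact_res H.subtype).2 (splitSC_shortExact C σ)

/-- The connecting map of the splitting module sends the generator to `res [σ]`. -/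
theorem δ_augClass :
    δ (splitSCres_shortExact C σ H) 1 2 rfl (augClass k G H) = rest C H 2 (H2π C σ) := by
  have hX := splitSCres_shortExact C σ H
  let y : H → (splitSCres C σ H).X₂ := fun h => ((0 : C), augCochain k G (h : G))
  let x : H × H → (splitSCres C σ H).X₁ :=
    fun p => σ ((p.1 : G), (p.2 : G)) - σ ((p.1 : G), 1)
  have hy : (splitSCres C σ H).g.hom ∘ y
      = (⟨_, augCochain_mem_cocycles₁ k G H⟩ : cocycles₁ (splitSCres C σ H).X₃) := rfl
  have hx : (splitSCres C σ H).f.hom ∘ x = d₁₂ (splitSCres C σ H).X₂ y := by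
    funext ⟨h, h'⟩
    have e1 : (d₁₂ (splitSCres C σ H).X₂).hom y (h, h')
        = splitRho C σ (h : G) ((0 : C), augCochain k G (h' : G))
          - ((0 : C), augCochain k G ((h : G) * (h' : G)))
          + ((0 : C), augCochain k G (h : G)) := rfl
    have e2 : ((splitSCres C σ H).f.hom ∘ x) (h, h')
        = (σ ((h : G), (h' : G)) - σ ((h : G), 1), (0 : augSub k G)) := rfl
    refine e2.trans (Eq.trans ?_ e1.symm)
    rw [splitRho_apply, splitPhi_augCochain, augCochain_mul]
    refine Prod.ext ?_ ?_
    · simp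
    · simp
  have key := δ₁_apply hX ⟨_, augCochain_mem_cocycles₁ k G H⟩ y hy x hx
  refine (key.trans ?_)
  rw [rest, H2π_comp_map_apply]
  refine (H2π_eq_iff (A := Rep.res H.subtype C)
    ⟨x, mem_cocycles₂_of_comp_eq_d₁₂ hX hx⟩ _).2 ⟨fun _ => -σ (1, 1), ?_⟩
  funext ⟨h, h'⟩
  have e3 : (d₁₂ (Rep.res H.subtype C)).hom (fun _ => -σ (1, 1)) (h, h')
      = C.ρ (h : G) (-σ (1, 1)) - (-σ (1, 1)) + (-σ (1, 1)) := rfl
  refine e3.trans ?_
  have e4 : σ ((h : G), (1 : G)) = C.ρ (h : G) (σ (1, 1)) := cocycles₂_map_one_snd σ (h : G)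
  show _ = (σ ((h : G), (h' : G)) - σ ((h : G), 1)) - σ ((h : G), (h' : G))
  rw [e4, map_neg]
  abel

end Fermat.Agent.S55.GrpCoh
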