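import Fermat.Agent.S55.GrpCoh.AugDefs

/-!
# S55 / B1 — the splitting module of a 2-cocycle (definitions)

For a finite group `G`, a `G`-module `C` and a 2-cocycle `σ : G × G → C`, the splitting module
`C(σ)` is `C × augSub k G` with the twisted action
`g • (c, f) = (g • c + Φ_g f, g • f)`, `Φ_g f = ∑ x, f x • σ (g, x⁻¹)`.
It sits in `0 ⟶ C ⟶ C(σ) ⟶ augRep k G ⟶ 0`, and the connecting map
`H¹(H, augRep k G) ⟶ H²(H, C)` sends the canonical generator to `res [σ]` (see `Split.lean`).
-/

set_option autoImplicit false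

universe u

open CategoryTheory

namespace Fermat.Agent.S55.GrpCoh

variable {k G : Type u} [CommRing k] [Group G] [Fintype G] (C : Rep.{u} k G)
  (σ : groupCohomology.cocycles₂ C)

/-- `Φ_g f = ∑ x, f x • σ (g, x⁻¹)`. -/
def splitPhi (g : G) : augSub k G →ₗ[k] C where
  toFun f := ∑ x, (f : G → k) x • σ (g, x⁻¹)
  map_add' f f' := by simp [add_smul, Finset.sum_add_distrib]
  map_smul' c f := by simp [mul_smul, Finset.smul_sum]

lemma splitPhi_apply (g : G) (f : augSub k G) :
    splitPhi C σ g f = ∑ x, (f : G → k) x • σ (g, x⁻¹) := rfl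

lemma splitPhi_one (f : augSub k G) : splitPhi C σ 1 f = 0 := by
  have hf : ∑ x, (f : G → k) x = 0 := (mem_augSub k G _).1 f.2
  simp only [splitPhi_apply, groupCohomology.cocycles₂_map_one_fst]
  rw [← Finset.sum_smul, hf, zero_smul]

lemma splitPhi_mul (g h : G) (f : augSub k G) :
    splitPhi C σ (g * h) f = C.ρ g (splitPhi C σ h f) + splitPhi C σ g (augRho k G h f) := by
  have hf : ∑ x, (f : G → k) x = 0 := (mem_augSub k G _).1 f.2
  have hσ := (groupCohomology.mem_cocycles₂_iff (σ : G × G → C)).1 σ.2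
  simp only [splitPhi_apply, map_sum, map_smul]
  have h2 : ∑ x, ((augRho k G h f : augSub k G) : G → k) x • σ (g, x⁻¹)
      = ∑ y, (f : G → k) y • σ (g, h * y⁻¹) := by
    refine Fintype.sum_equiv (Equiv.mulRight h) _ _ (fun x => ?_)
    simp [mul_inv_rev]
  rw [h2, ← Finset.sum_add_distrib]
  have h3 : ∀ y : G, (f : G → k) y • σ (g * h, y⁻¹)
      = ((f : G → k) y • C.ρ g (σ (h, y⁻¹)) + (f : G → k) y • σ (g, h * y⁻¹))
        - (f : G → k) y • σ (g, h) := by
    intro y
    have := hσ g h y⁻¹
    rw [← smul_add, ← this, smul_add, add_sub_cancel_right]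
  rw [Finset.sum_congr rfl (fun y _ => h3 y), Finset.sum_sub_distrib, ← Finset.sum_smul, hf,
    zero_smul, sub_zero]

/-- The twisted action of one group element on `C × augSub k G`, as a linear map. -/
def splitLin (g : G) : (C × augSub k G) →ₗ[k] (C × augSub k G) where
  toFun p := (C.ρ g p.1 + splitPhi C σ g p.2, augRho k G g p.2)
  map_add' p q := by
    refine Prod.ext ?_ ?_
    · simp only [Prod.fst_add, Prod.snd_add, map_add]; abel
    · simp only [Prod.snd_add, map_add]
  map_smul' c p := by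
    refine Prod.ext ?_ ?_
    · simp only [Prod.smul_fst, Prod.smul_snd, map_smul, RingHom.id_apply, smul_add]
    · simp only [Prod.smul_snd, map_smul, RingHom.id_apply]

lemma splitLin_apply (g : G) (c : C) (f : augSub k G) :
    splitLin C σ g (c, f) = (C.ρ g c + splitPhi C σ g f, augRho k G g f) := rfl

/-- The twisted action on `C × augSub k G`. -/
def splitRho : Representation k G (C × augSub k G) where
  toFun g := splitLin C σ g
  map_one' := by
    refine LinearMap.ext fun ⟨c, f⟩ => ?_
    rw [splitLin_apply, splitPhi_one]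
    simp
  map_mul' g h := by
    refine LinearMap.ext fun ⟨c, f⟩ => ?_
    rw [Module.End.mul_apply, splitLin_apply, splitLin_apply, splitLin_apply, splitPhi_mul]
    refine Prod.ext ?_ ?_
    · simp only [map_mul, Module.End.mul_apply, map_add]; abel
    · simp only [map_mul, Module.End.mul_apply]

lemma splitRho_apply (g : G) (c : C) (f : augSub k G) :
    splitRho C σ g (c, f) = (C.ρ g c + splitPhi C σ g f, augRho k G g f) := rfl

/-- The splitting module `C(σ)`. -/
abbrev splitRep : Rep.{u} k G := Rep.of (splitRho C σ)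

/-- `C ⟶ C(σ)`, `c ↦ (c, 0)`. -/
def splitIncl : C ⟶ splitRep C σ :=
  Rep.ofHom (ρ := C.ρ) (σ := splitRho C σ) ⟨LinearMap.inl k C (augSub k G), fun g => by
    refine LinearMap.ext fun c => Prod.ext ?_ ?_ <;> simp [splitRho_apply]⟩

/-- `C(σ) ⟶ augRep k G`, `(c, f) ↦ f`. -/
def splitProj : splitRep C σ ⟶ augRep k G :=
  Rep.ofHom ⟨LinearMap.snd k C (augSub k G), fun g => by
    refine LinearMap.ext fun ⟨c, f⟩ => rfl⟩

/-- The short complex `C ⟶ C(σ) ⟶ augRep k G`. -/
def splitSC : ShortComplex (Rep.{u} k G) :=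
  ShortComplex.mk (splitIncl C σ) (splitProj C σ) (by
    ext c
    rfl)

end Fermat.Agent.S55.GrpCoh
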