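import Fermat.Agent.S55.GrpCoh.Twin
import Fermat.Agent.S55.GrpCoh.Split
import Fermat.Agent.S55.GrpCoh.Les

/-!
# S55 / B1 — Tate's theorem in degree 3 for class modules

Let `G` be a finite group and `C` a `G`-module such that for every subgroup `H ≤ G`:
`H¹(H, C) = 0` and `H²(H, C)` is cyclic of order `|H|`, generated by the restriction of a fixed
class `u ∈ H²(G, C)`. Then `H³(G, C) = 0`.

Proof (Tate): splitting module `0 ⟶ C ⟶ C(u) ⟶ I_G ⟶ 0` (`I_G` = augmentation ideal of `ℤ[G]`,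
action on `C ⊕ I_G` twisted by a 2-cocycle representing `u`); the connecting map
`H¹(H, I_G) = ℤ/|H| ⟶ H²(H, C)` sends the generator to `res u`, so `H¹(H, C(u)) = H²(H, C(u)) = 0`
for all `H`; twin vanishing gives `H³(G, C(u)) = 0`, and `H²(G, I_G) ≅ H¹(G, ℤ) = 0`.
-/

set_option autoImplicit false

open CategoryTheory groupCohomology

namespace Fermat.Agent.S55.GrpCoh

/-- Abstract core of Tate's argument: in a short exact sequence `0 ⟶ X₁ ⟶ X₂ ⟶ X₃ ⟶ 0` with
`H¹(X₁) = 0 = H²(X₃)`, `H¹(X₃)` generated by a class `a₀` killed by `N`, and `H²(X₁)` generated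
by `δ a₀`, of exact order `N`, the middle term has `H¹(X₂) = 0 = H²(X₂)`. -/
theorem twin_of_split {Γ : Type} [Group Γ] {X : ShortComplex (Rep.{0} ℤ Γ)} (hX : X.ShortExact)
    (a₀ : groupCohomology X.X₃ 1) (N : ℤ)
    (hgen₃ : ∀ y : groupCohomology X.X₃ 1, ∃ m : ℤ, y = m • a₀)
    (htor : N • a₀ = 0)
    (hgen₁ : ∀ c : groupCohomology X.X₁ 2, ∃ m : ℤ, c = m • δ hX 1 2 rfl a₀)
    (hord : ∀ m : ℤ, m • δ hX 1 2 rfl a₀ = 0 → N ∣ m)
    (h1 : Limits.IsZero (groupCohomology X.X₁ 1))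
    (h2 : Limits.IsZero (groupCohomology X.X₃ 2)) :
    Limits.IsZero (groupCohomology X.X₂ 1) ∧ Limits.IsZero (groupCohomology X.X₂ 2) := by
  have hz : ∀ {M : ModuleCat ℤ}, Limits.IsZero M → ∀ x : M, x = 0 := by
    intro M hM x
    have := ModuleCat.subsingleton_of_isZero hM
    exact Subsingleton.elim _ _
  have e1 : ∀ m : ℤ, δ hX 1 2 rfl (m • a₀) = m • δ hX 1 2 rfl a₀ :=
    fun m => map_zsmul (δ hX 1 2 rfl).hom m a₀
  constructor
  · refine @ModuleCat.isZero_of_subsingleton _ _ _ ⟨fun a b => ?_⟩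
    have key : ∀ e : groupCohomology X.X₂ 1, e = 0 := by
      intro e
      obtain ⟨m, hm⟩ := hgen₃ (groupCohomology.map (MonoidHom.id Γ) X.g 1 e)
      have hδ : δ hX 1 2 rfl (m • a₀) = 0 := by
        rw [← hm]
        exact les_δ_map hX 1 e
      rw [e1] at hδ
      obtain ⟨d, rfl⟩ := hord m hδ
      have h3 : (N * d) • a₀ = 0 := by
        rw [mul_comm, mul_zsmul, htor, zsmul_zero]
      obtain ⟨c, rfl⟩ := les_exact₂ hX 1 e (hm.trans h3)
      rw [hz h1 c, map_zero]
    rw [key a, key b]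
  · refine @ModuleCat.isZero_of_subsingleton _ _ _ ⟨fun a b => ?_⟩
    have key : ∀ e : groupCohomology X.X₂ 2, e = 0 := by
      intro e
      obtain ⟨c, rfl⟩ := les_exact₂ hX 2 e (hz h2 _)
      obtain ⟨m, rfl⟩ := hgen₁ c
      rw [← e1]
      exact les_map_δ hX 1 (m • a₀)
    rw [key a, key b]

variable {G : Type} [Group G]

/-- Tate's theorem, degree 3. -/
theorem isZero_H3_of_class [Finite G] (C : Rep.{0} ℤ G)
    (h1 : ∀ H : Subgroup G, VanishOn C H 1)
    (u : groupCohomology C 2)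
    (hgen : ∀ (H : Subgroup G) (y : groupCohomology (Rep.res H.subtype C) 2),
      ∃ m : ℤ, y = m • rest C H 2 u)
    (hcard : ∀ H : Subgroup G, Nat.card (groupCohomology (Rep.res H.subtype C) 2) = Nat.card H) :
    Limits.IsZero (groupCohomology C 3) := by
  classical
  haveI : Fintype G := Fintype.ofFinite G
  have hk : ∀ n : ℕ, 0 < n → ∀ a : ℤ, n • a = 0 → a = 0 := by
    intro n hn a h
    rcases smul_eq_zero.1 h with h | h
    · omega
    · exact h
  obtain ⟨σ, rfl⟩ : ∃ σ : cocycles₂ C, H2π C σ = u :=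
    (ModuleCat.epi_iff_surjective (H2π C)).1 inferInstance u
  -- the order of `res u` is `|H|`
  have hord : ∀ (H : Subgroup G) (m : ℤ), m • rest C H 2 (H2π C σ) = 0 → (Nat.card H : ℤ) ∣ m := by
    intro H m hm
    have htop : AddSubgroup.zmultiples (rest C H 2 (H2π C σ)) = ⊤ := by
      rw [eq_top_iff]
      intro y _
      obtain ⟨m, rfl⟩ := hgen H y
      exact AddSubgroup.zsmul_mem_zmultiples _ m
    have hc : addOrderOf (rest C H 2 (H2π C σ)) = Nat.card H := by
      rw [← hcard H, ← Nat.card_zmultiples, htop, Nat.card_congr (AddSubgroup.topEquiv).toEquiv]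
    rw [← hc]
    exact (addOrderOf_dvd_iff_zsmul_eq_zero).2 hm
  -- twin vanishing for the splitting module
  have hE : ∀ H : Subgroup G, VanishOn (splitRep C σ) H 1 ∧ VanishOn (splitRep C σ) H 2 := by
    intro H
    have hX := splitSCres_shortExact C σ H
    have ha₀ : δ hX 1 2 rfl (augClass ℤ G H) = rest C H 2 (H2π C σ) := δ_augClass C σ H
    refine twin_of_split hX (augClass ℤ G H) (Nat.card H : ℤ) (fun y => ?_) ?_ (fun c => ?_)
      (fun m hm => ?_) (h1 H) (isZero_H2_aug ℤ G H hk)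
    · obtain ⟨m, hm⟩ := H1_aug_generated ℤ G H y
      exact ⟨m, hm.trans (int_smul_eq_zsmul _ m _)⟩
    · have := card_smul_eq_zero (Rep.res H.subtype (augRep ℤ G)) 1 le_rfl (augClass ℤ G H)
      exact (int_smul_eq_zsmul _ _ _).symm.trans this
    · obtain ⟨m, hm⟩ := hgen H c
      exact ⟨m, hm.trans (congrArg (fun t => m • t) ha₀.symm)⟩
    · exact hord H m ((congrArg (fun t => m • t) ha₀.symm).trans hm)
  have hE1 : ∀ H : Subgroup G, VanishOn (splitRep C σ) H 1 := fun H => (hE H).1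
  have hE2 : ∀ H : Subgroup G, VanishOn (splitRep C σ) H 2 := fun H => (hE H).2
  have hE3 : Limits.IsZero (groupCohomology (splitRep C σ) 3) := isZero_H3_of_twin _ hE1 hE2
  have haug : Limits.IsZero (groupCohomology (augRep ℤ G) 2) := isZero_H2_augRep ℤ G hk
  exact (mapShortComplex₁_exact (splitSC_shortExact C σ) (i := 2) (j := 3) rfl).isZero_of_both_isZero
    haug hE3

end Fermat.Agent.S55.GrpCoh
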