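import Fermat.Agent.S55.GrpCoh.InfRes
import Fermat.Agent.S55.GrpCoh.Transfer
import Fermat.Agent.S55.GrpCoh.Transport

/-!
# S55 / B1 — twin vanishing in degrees 1, 2 forces vanishing in degree 3

If `H¹(H, A) = H²(H, A) = 0` for every subgroup `H` of a finite group `G`, then `H³(G, A) = 0`.

Proof (Serre, Local Fields, IX §5): Sylow reduction (`isZero_of_sylow`) to groups of prime power
order `pⁿ`, then induction on `n`.  A group of order `pⁿ⁺¹` has a subgroup `H` of order `pⁿ`,
which is normal (index = smallest prime factor) with `G ⧸ H` cyclic of order `p`.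
By induction `H³(H, A) = 0` (the hypotheses restrict to `H`), so by inflation–restriction in
degree 3 every class of `H³(G, A)` is inflated from `H³(G ⧸ H, A^H)`.  Finally
`H¹(G ⧸ H, A^H) ↪ H¹(G, A) = 0`, hence `H³(G ⧸ H, A^H) = 0` by periodicity for cyclic groups.
-/

set_option autoImplicit false

universe u

open CategoryTheory

namespace Fermat.Agent.S55.GrpCoh

variable {k G : Type u} [CommRing k] [Group G]

/-- Periodicity for finite cyclic groups, in the form needed here. -/
theorem isZero_H3_of_isCyclic [Finite G] [IsCyclic G] (A : Rep.{u} k G)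
    (h1 : Limits.IsZero (groupCohomology A 1)) : Limits.IsZero (groupCohomology A 3) := by
  classical
  obtain ⟨g, hg⟩ := IsCyclic.exists_generator (α := G)
  let _ : CommGroup G := IsCyclic.commGroup
  let _ : Fintype G := Fintype.ofFinite G
  have e1 := Rep.FiniteCyclicGroup.groupCohomologyIsoOdd A g hg 1 (by decide)
  have e3 := Rep.FiniteCyclicGroup.groupCohomologyIsoOdd A g hg 3 (by decide)
  exact (h1.of_iso e1.symm).of_iso e3

/-- Twin vanishing for groups of prime power order, by induction on the exponent. -/
theorem isZero_H3_of_twin_pow (p : ℕ) [hp : Fact p.Prime] (n : ℕ) :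
    ∀ (G : Type u) [Group G] [Finite G] (A : Rep.{u} k G), Nat.card G = p ^ n →
      (∀ H : Subgroup G, VanishOn A H 1) → (∀ H : Subgroup G, VanishOn A H 2) →
      Limits.IsZero (groupCohomology A 3) := by
  induction n with
  | zero =>
    intro G _ _ A hcard h1 _
    have : Subsingleton G := (Nat.card_eq_one_iff_unique.mp (by simpa using hcard)).1
    exact isZero_H3_of_isCyclic A (isZero_of_vanishOn_top A 1 (h1 ⊤))
  | succ n ih =>
    intro G _ _ A hcard h1 h2
    -- a normal subgroup `H` of index `p`
    obtain ⟨H, hH⟩ := Sylow.exists_subgroup_card_pow_prime (G := G) p (n := n)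
      (by rw [hcard]; exact pow_dvd_pow p (Nat.le_succ n))
    have hidx : H.index = p := by
      have h := H.card_mul_index
      rw [hH, hcard, pow_succ] at h
      exact Nat.eq_of_mul_eq_mul_left (pow_pos hp.out.pos n) h
    have hnormal : H.Normal := by
      apply Subgroup.normal_of_index_eq_minFac_card
      rw [hidx, hcard, hp.out.pow_minFac (Nat.succ_ne_zero n)]
    have hcyc : IsCyclic (G ⧸ H) :=
      isCyclic_of_prime_card (p := p) (by rw [← H.index_eq_card, hidx])
    -- `H³(H, A) = 0` by induction
    have hH3 : Limits.IsZero (groupCohomology (Rep.res H.subtype A) 3) :=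
      ih H (Rep.res H.subtype A) hH (forall_vanishOn_res A 1 h1 H) (forall_vanishOn_res A 2 h2 H)
    -- `H¹(G ⧸ H, A^H) = 0` since inflation is injective into `H¹(G, A) = 0`
    have hQ1 : Limits.IsZero (groupCohomology (A.quotientToInvariants H) 1) :=
      isZero_of_injective (infl A H 1)
        (infl_injective A H 1 le_rfl (fun i _ hi1 => absurd hi1 (by omega)))
        (isZero_of_vanishOn_top A 1 (h1 ⊤))
    -- hence `H³(G ⧸ H, A^H) = 0` by periodicity
    have hQ3 : Limits.IsZero (groupCohomology (A.quotientToInvariants H) 3) :=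
      isZero_H3_of_isCyclic _ hQ1
    rw [ModuleCat.isZero_iff_subsingleton] at hH3 hQ3 ⊢
    have key : ∀ x : groupCohomology A 3, x = 0 := by
      intro x
      obtain ⟨y, rfl⟩ := infl_rest_exact A H 3 (by norm_num)
        (fun i h1i hi3 => by
          obtain rfl | rfl : i = 1 ∨ i = 2 := by omega
          · exact h1 H
          · exact h2 H) x (Subsingleton.elim _ _)
      rw [Subsingleton.elim y 0, map_zero]
    exact ⟨fun x y => by rw [key x, key y]⟩

/-- Twin vanishing: `H¹ = H² = 0` on all subgroups implies `H³(G, A) = 0`. -/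
theorem isZero_H3_of_twin [Finite G] (A : Rep.{u} k G)
    (h1 : ∀ H : Subgroup G, VanishOn A H 1) (h2 : ∀ H : Subgroup G, VanishOn A H 2) :
    Limits.IsZero (groupCohomology A 3) := by
  refine isZero_of_sylow A 3 (by norm_num) (fun p hp => ?_)
  have : Fact p.Prime := ⟨hp⟩
  let P : Sylow p G := default
  obtain ⟨n, hn⟩ := IsPGroup.iff_card.mp P.isPGroup'
  exact ⟨P, isZero_H3_of_twin_pow p n (P : Subgroup G) (Rep.res (P : Subgroup G).subtype A) hn
    (forall_vanishOn_res A 1 h1 _) (forall_vanishOn_res A 2 h2 _)⟩

end Fermat.Agent.S55.GrpCoh
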